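import Fermat.Agent.RT.MazurP.Basic
import Fermat.Agent.RT.MazurP.Eigen
import Fermat.Agent.GaloisReps.Results
import Fermat.Agent.HeckeDuality.DeligneSerre

/-!
# Congruent eigenforms and eigen classes in the torsion of the Jacobian

A system of eigenvalues congruent modulo a maximal ideal over `p` to integers occurs in
`J₀(N)[p]`, the lattice being a faithful module over the Hecke algebra; conversely, by
Deligne–Serre, an eigen class gives a congruent eigenform.
-/

set_option autoImplicit false
set_option synthInstance.maxHeartbeats 400000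
set_option maxHeartbeats 800000

noncomputable section

open ModularCurve AlgebraicCurve CongruenceSubgroup
open Fermat.Agent.Semistable Fermat.Agent.Arith Fermat.Agent.RT.MazurP

namespace Fermat.Agent.RT.Mazur

/-- A maximal ideal containing the annihilator of a finite module kills a nonzero element. -/
theorem exists_killed_of_isMaximal {R V : Type*} [CommRing R] [AddCommGroup V] [Module R V]
    [Finite V] (I : Ideal R) [hI : I.IsMaximal] (h : ∀ r : R, (∀ v : V, r • v = 0) → r ∈ I) :
    ∃ v : V, v ≠ 0 ∧ ∀ r ∈ I, r • v = 0 := by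
  classical
  have : Finite (Submodule R V) := Finite.of_injective _ SetLike.coe_injective
  let S : Set (Submodule R V) := {W | ∀ r : R, (∀ w ∈ W, r • w = 0) → r ∈ I}
  obtain ⟨W, hW⟩ := Set.Finite.exists_minimal S.toFinite
    ⟨⊤, fun r hr => h r fun v => hr v Submodule.mem_top⟩
  have hW0 : W ≠ ⊥ := by
    intro h0
    refine hI.ne_top ((Ideal.eq_top_iff_one I).mpr (hW.prop 1 fun w hw => ?_))
    rw [h0, Submodule.mem_bot] at hw
    rw [hw, smul_zero]
  obtain ⟨v, hv, hv0⟩ := Submodule.exists_mem_ne_zero_of_ne_bot hW0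
  refine ⟨v, hv0, fun t ht => ?_⟩
  let L : V →ₗ[R] V := LinearMap.lsmul R V t
  have hle : W.map L ≤ W := by
    rintro _ ⟨w, hw, rfl⟩
    exact W.smul_mem t hw
  by_cases hmem : W.map L ∈ S
  · -- then `t` permutes the minimal module
    have hbij : Function.Bijective (fun w : W => t • w) := by
      have hsur : Function.Surjective (fun w : W => t • w) := by
        rintro ⟨w, hw⟩
        obtain ⟨w', hw', e⟩ := hW.le_of_le hmem hle hw
        exact ⟨⟨w', hw'⟩, Subtype.ext e⟩
      exact ⟨Finite.injective_iff_surjective.mpr hsur, hsur⟩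
    let e : Equiv.Perm W := Equiv.ofBijective _ hbij
    have he : ∀ (n : ℕ) (w : W), (e ^ n) w = t ^ n • w := by
      intro n
      induction n with
      | zero => simp
      | succ n ih =>
        intro w
        rw [pow_succ', Equiv.Perm.mul_apply, ih, pow_succ', mul_smul]
        rfl
    have : Finite W := Subtype.finite
    have hpow : ∀ w : W, t ^ orderOf e • w = w := fun w => by
      rw [← he, pow_orderOf_eq_one, Equiv.Perm.one_apply]
    have h1 : t ^ orderOf e - 1 ∈ I := hW.prop _ fun w hw => by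
      rw [sub_smul, one_smul, sub_eq_zero]
      exact congrArg Subtype.val (hpow ⟨w, hw⟩)
    have h2 : t ^ orderOf e ∈ I :=
      Ideal.pow_mem_of_mem _ ht _ (orderOf_pos e)
    exact absurd ((Ideal.eq_top_iff_one I).mpr (by simpa using sub_mem h2 h1)) hI.ne_top
  · obtain ⟨u, hu, huI⟩ : ∃ u, (∀ w ∈ W.map L, u • w = 0) ∧ u ∉ I := by
      simpa [S] using hmem
    let Lu : V →ₗ[R] V := LinearMap.lsmul R V u
    have hmemu : W.map Lu ∈ S := fun r hr =>
      (hI.isPrime.mem_or_mem (hW.prop (r * u) fun w hw => by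
        rw [mul_smul]; exact hr _ ⟨w, hw, rfl⟩)).resolve_right huI
    obtain ⟨w, hw, e⟩ := hW.le_of_le hmemu (by
      rintro _ ⟨w, hw, rfl⟩
      exact W.smul_mem u hw) hv
    rw [← e]
    show t • u • w = 0
    rw [smul_comm]
    exact hu _ ⟨w, hw, rfl⟩

variable {N p : ℕ} [NeZero N] [Fact p.Prime]

/-- The `p`-torsion in coordinates. -/
def torsCoord (N p : ℕ) [NeZero N] [Fact p.Prime] :
    Pic0.torsion QBar (modularFunctionFieldBar N) p ≃+
      (Fin (2 * Gamma0.genus N) → ZMod p) :=
  ((JacTorsion.torsionEquiv N p).trans (GaloisReps.atkinEquiv N (ZMod p))).trans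
    (AddEquiv.ofBijective ((GaloisReps.coord N (ZMod p)).comp
      (Gamma0.ellParHoms (Gamma0 N) (ZMod p)).subtype) (GaloisReps.coord_bijective (ZMod p)))

/-- The Hecke algebra on the coordinates. -/
@[reducible] def torsCoordModule (N p : ℕ) [NeZero N] :
    Module (GaloisReps.FullHecke N) (Fin (2 * Gamma0.genus N) → ZMod p) :=
  Module.compHom _ (((Matrix.toLinAlgEquiv' (R := ZMod p)
    (n := Fin (2 * Gamma0.genus N))).toRingEquiv.toRingHom.comp
      (GaloisReps.matIn (GaloisReps.latticeMat N) (ZMod p))) :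
      GaloisReps.FullHecke N →+* Module.End (ZMod p) (Fin (2 * Gamma0.genus N) → ZMod p))

attribute [local instance] torsCoordModule

theorem torsCoord_hecke (l : ℕ) (hl : l.Prime)
    (y z : Pic0.torsion QBar (modularFunctionFieldBar N) p)
    (hz : (z : JZero N) = heckeOperatorBar N ⟨l, hl⟩ (y : JZero N)) :
    torsCoord N p z = HeckeDuality.heckeOp N 2 l hl • torsCoord N p y := by
  refine Eq.trans ?_ (Matrix.toLinAlgEquiv'_apply _ _).symm
  rw [GaloisReps.matIn_apply, GaloisReps.latticeMat_heckeOp]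
  show GaloisReps.coord N (ZMod p)
    (GaloisReps.atkinHom N (ZMod p) (JacTorsion.torsionEquiv N p z).1) = _
  rw [GaloisReps.atkinHom_torsionEquiv_hecke l hl y z hz]
  exact GaloisReps.coord_homOp l hl (GaloisReps.atkinEquiv N (ZMod p) _).2

/-- An eigen system which is congruent to integers modulo a maximal ideal over `p` occurs in the
`p`-torsion of the Jacobian. -/
theorem exists_eigen_torsion (G : ℕ → Prop) (a : ℕ → ℤ)
    {g : CuspForm (Gamma0 N) 2} (hg : g.IsNormalizedEigenform)
    {𝔪 : Ideal (integralClosure ℤ ℂ)} (hm : 𝔪.IsMaximal) (hp : (p : integralClosure ℤ ℂ) ∈ 𝔪)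
    (hcong : ∀ l, l.Prime → G l → ∃ c : integralClosure ℤ ℂ,
      (c : ℂ) = ModularFormClass.qCoeff g l ∧ c - (a l : integralClosure ℤ ℂ) ∈ 𝔪) :
    ∃ y : JZero N, y ≠ 0 ∧ p • y = 0 ∧ IsEigen N G a y := by
  classical
  have hpp : p.Prime := Fact.out
  obtain ⟨θ, hθ⟩ := GaloisReps.exists_eigenform_character hg
  let F := integralClosure ℤ ℂ ⧸ 𝔪
  let χ : GaloisReps.FullHecke N →+* F := (Ideal.Quotient.mk 𝔪).comp θ
  have : Module.Finite ℤ (GaloisReps.FullHecke N) := IntegralStructure.heckeAlgebra_finite N 2 ∅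
  set d := 2 * Gamma0.genus N
  have hact : ∀ (t : GaloisReps.FullHecke N) (v : Fin d → ZMod p),
      t • v = ((GaloisReps.latticeMat N t).map (Int.castRingHom (ZMod p))).mulVec v :=
    fun t v => Matrix.toLinAlgEquiv'_apply _ _
  -- the kernel of the reduced system contains the annihilator
  have hann : ∀ t : GaloisReps.FullHecke N,
      (∀ v : Fin d → ZMod p, t • v = 0) → t ∈ RingHom.ker χ := by
    intro t ht
    let θC : GaloisReps.FullHecke N →+* ℂ := (integralClosure ℤ ℂ).val.toRingHom.comp θ
    have hX : ∀ i j, (p : ℤ) ∣ GaloisReps.latticeMat N t i j := by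
      intro i j
      have h1 := congrFun ((hact t (Pi.single j 1)).symm.trans (ht _)) i
      rw [← ZMod.intCast_zmod_eq_zero_iff_dvd]
      simpa [Matrix.mulVec_single] using h1
    choose X hX using hX
    have hne : GaloisReps.eigenspace (GaloisReps.latticeMat N) θC ≠ ⊥ := by
      intro h0
      have h2 := GaloisReps.finrank_eigenspace_latticeMat θC
      rw [h0] at h2
      simp at h2
    obtain ⟨w, hw, hw0⟩ := Submodule.exists_mem_ne_zero_of_ne_bot hne
    have hwt := (GaloisReps.mem_eigenspace _ _ _).mp hw t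
    set Y : Matrix (Fin d) (Fin d) ℤ := Matrix.of X
    set x : ℂ := θC t / p
    have hp0 : (p : ℂ) ≠ 0 := Nat.cast_ne_zero.mpr hpp.ne_zero
    have hY : (Y.map (Int.castRingHom ℂ)).mulVec w = x • w := by
      have e : (GaloisReps.latticeMat N t).map (Int.castRingHom ℂ) =
          (p : ℂ) • Y.map (Int.castRingHom ℂ) := by
        ext i j
        simp [Y, hX i j]
      rw [GaloisReps.matIn_apply, e, Matrix.smul_mulVec] at hwt
      rw [← inv_smul_smul₀ hp0 ((Y.map (Int.castRingHom ℂ)).mulVec w), hwt, smul_smul]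
      congr 1
      simp only [x]
      field_simp
    have hroot : (Y.map (Int.castRingHom ℂ)).charpoly.eval x = 0 := by
      rw [Matrix.eval_charpoly, ← Matrix.exists_mulVec_eq_zero_iff]
      refine ⟨w, hw0, ?_⟩
      rw [Matrix.sub_mulVec, hY]
      funext i
      simp [Matrix.scalar_apply]
    have hint : IsIntegral ℤ x := ⟨Y.charpoly, Matrix.charpoly_monic Y, by
      rw [Matrix.charpoly_map, Polynomial.eval_map] at hroot
      simpa [algebraMap_int_eq] using hroot⟩
    rw [RingHom.mem_ker]
    show Ideal.Quotient.mk 𝔪 (θ t) = 0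
    rw [Ideal.Quotient.eq_zero_iff_mem,
      show θ t = (p : integralClosure ℤ ℂ) * ⟨x, hint⟩ from Subtype.ext (by
        show θC t = ((p : integralClosure ℤ ℂ) : ℂ) * x
        simp only [x]
        push_cast
        field_simp)]
    exact 𝔪.mul_mem_right _ hp
  have hker : (RingHom.ker χ).IsMaximal := by
    have hfin : Finite χ.range := by
      have : CharP F p := by
        refine CharP.charP_iff_prime_eq_zero hpp |>.mpr ?_
        rw [← map_natCast (Ideal.Quotient.mk 𝔪), Ideal.Quotient.eq_zero_iff_mem]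
        exact hp
      let : Field F := Ideal.Quotient.field 𝔪
      exact (finite_range_of_charP p χ).to_subtype
    have hfield : IsField χ.range := Finite.isField_of_domain _
    have hs : Function.Surjective χ.rangeRestrict := χ.rangeRestrict_surjective
    have := Ideal.comap_isMaximal_of_surjective χ.rangeRestrict hs (K := (⊥ : Ideal χ.range))
      (H := by
        let := hfield.toField
        exact Ideal.bot_isMaximal)
    rwa [← RingHom.ker_eq_comap_bot, RingHom.ker_rangeRestrict] at this
  obtain ⟨v, hv0, hv⟩ := exists_killed_of_isMaximal (RingHom.ker χ) hann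
  set y := (torsCoord N p).symm v with hy
  have hey : torsCoord N p y = v := (torsCoord N p).apply_symm_apply v
  refine ⟨(y : JZero N), fun h0 => hv0 ?_, ?_, fun l hl hGl => ?_⟩
  · rw [← hey, show y = 0 from Subtype.ext h0, map_zero]
  · rw [← natCast_zsmul]; exact Pic0.mem_torsion.mp y.2
  · have hz : heckeOperatorBar N ⟨l, hl⟩ (y : JZero N) ∈
        Pic0.torsion QBar (modularFunctionFieldBar N) p :=
      Pic0.mem_torsion.mpr (by rw [← map_zsmul, Pic0.mem_torsion.mp y.2, map_zero])
    suffices h : (⟨_, hz⟩ : Pic0.torsion QBar (modularFunctionFieldBar N) p) = a l • y from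
      congrArg Subtype.val h
    apply (torsCoord N p).injective
    rw [map_zsmul, torsCoord_hecke l hl y ⟨_, hz⟩ rfl, hey]
    have hmem : HeckeDuality.heckeOp N 2 l hl - (a l : GaloisReps.FullHecke N) ∈ RingHom.ker χ := by
      rw [RingHom.mem_ker]
      show Ideal.Quotient.mk 𝔪 (θ _) = 0
      rw [map_sub, map_intCast, Ideal.Quotient.eq_zero_iff_mem]
      obtain ⟨c, hc, hc'⟩ := hcong l hl hGl
      rwa [show θ (HeckeDuality.heckeOp N 2 l hl) = c from
        Subtype.ext ((hθ l hl).trans hc.symm)]
    have h2 := hv _ hmem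
    rw [sub_smul, Int.cast_smul_eq_zsmul, sub_eq_zero] at h2
    exact h2

/-- A nonzero eigen class in the `p`-torsion gives a congruent eigenform. -/
theorem exists_eigenform_of_eigen_torsion (G : ℕ → Prop) (a : ℕ → ℤ)
    {y : JZero N} (hy : y ≠ 0) (hpy : p • y = 0) (heig : IsEigen N G a y) :
    ∃ (g : CuspForm (Gamma0 N) 2) (_ : g.IsNormalizedEigenform)
      (𝔪 : Ideal (integralClosure ℤ ℂ)), 𝔪.IsMaximal ∧ ((p : ℕ) : integralClosure ℤ ℂ) ∈ 𝔪 ∧
      ∀ l, l.Prime → G l → ∃ c : integralClosure ℤ ℂ,
        (c : ℂ) = ModularFormClass.qCoeff g l ∧ c - (a l : integralClosure ℤ ℂ) ∈ 𝔪 := by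
  classical
  have : Module.Finite ℤ (GaloisReps.FullHecke N) := IntegralStructure.heckeAlgebra_finite N 2 ∅
  set z : Pic0.torsion QBar (modularFunctionFieldBar N) p :=
    ⟨y, Pic0.mem_torsion.mpr (by rw [natCast_zsmul]; exact hpy)⟩
  set v := torsCoord N p z
  let I : Ideal (GaloisReps.FullHecke N) :=
    { carrier := {t | t • v = 0}
      zero_mem' := zero_smul _ v
      add_mem' := fun {s t} hs ht => show (s + t) • v = 0 by rw [add_smul, hs, ht, add_zero]
      smul_mem' := fun c t ht => show (c * t) • v = 0 by rw [mul_smul, ht, smul_zero] }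
  obtain ⟨P, hP, hIP⟩ := Ideal.exists_le_maximal I fun h => hy (by
    have h1 : (1 : GaloisReps.FullHecke N) • v = 0 := (h ▸ Submodule.mem_top : (1 : GaloisReps.FullHecke N) ∈ I)
    rw [one_smul] at h1
    have h2 : z = 0 := (torsCoord N p).injective (h1.trans (map_zero _).symm)
    exact congrArg Subtype.val h2)
  have hpP : ((p : ℕ) : GaloisReps.FullHecke N) ∈ P := hIP (show (p : GaloisReps.FullHecke N) • v = 0 by
    rw [Nat.cast_smul_eq_nsmul]; funext i; simp)
  let : Field (GaloisReps.FullHecke N ⧸ P) := Ideal.Quotient.field P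
  have : CharP (GaloisReps.FullHecke N ⧸ P) p := by
    refine (CharP.charP_iff_prime_eq_zero (Fact.out : p.Prime)).mpr ?_
    rw [← map_natCast (Ideal.Quotient.mk P), Ideal.Quotient.eq_zero_iff_mem]
    exact hpP
  have : Finite (GaloisReps.FullHecke N ⧸ P) := Set.finite_univ_iff.mp
    ((finite_range_of_charP p (Ideal.Quotient.mk P)).subset fun x _ =>
      Ideal.Quotient.mk_surjective x)
  obtain ⟨g, hg, 𝔪, hm, hpm, hcong⟩ := HeckeDuality.exists_eigenform_lifting (p := p)
    (IntegralStructure.hasIntegralStructure N 2) (Ideal.Quotient.mk P)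
  refine ⟨g, hg, 𝔪, hm, hpm, fun l hl hGl => hcong l hl (a l) ?_⟩
  rw [← map_intCast (Ideal.Quotient.mk P), Ideal.Quotient.eq]
  refine hIP (show (HeckeDuality.heckeOp N 2 l hl - (a l : GaloisReps.FullHecke N)) • v = 0 from ?_)
  rw [sub_smul, Int.cast_smul_eq_zsmul, sub_eq_zero]
  have h := torsCoord_hecke l hl z (a l • z) (by
    rw [AddSubgroup.coe_zsmul]; exact (heig l hl hGl).symm)
  rw [← h, map_zsmul]

end Fermat.Agent.RT.Mazur

end
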