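import Fermat.Agent.RT.MazurP.HeckeSeries
import Fermat.Agent.RT.Mazur.Injective

/-!
# Mazur's principle: the involution, constant reductions and a change of auxiliary level
-/

set_option autoImplicit false
set_option synthInstance.maxHeartbeats 400000

noncomputable section

namespace Fermat.Agent.RT.Mazur

open ModularCurve AlgebraicCurve
open Fermat.Agent.Semistable Fermat.Agent.Arith

variable (q M : ℕ) [hq : Fact q.Prime] [NeZero M] (hqM : ¬ q ∣ M)

/-- The involution `w_q` on the classes of level `q M`. -/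
def wPic : JZero (q * M) →+ JZero (q * M) :=
  DistribSMul.toAddMonoidHom (JZero (q * M)) (SemilinearAut.ofAlgAut (wEquiv q M hqM))

/-- The class has a Kummer function whose two reductions are nonzero constants. -/
def HasConstRed (A : ValuationSubring QBar) (p : ℕ) [NeZero p] (x : JZero (q * M)) : Prop :=
  ∃ f : JacTorsion.divGrp QBar (FB (q * M)) p,
    (JacTorsion.toTorsion (Additive.ofMul f) : JZero (q * M)) = x ∧
    ∃ (h : ((f : (FB (q * M))ˣ) : FB (q * M)) ∈ loc2 A (iota2 M q hqM)) (a : Fin 2 → Res A),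
      (∀ s, a s ≠ 0) ∧
        ∀ s, red2 A (iota2 M q hqM) ⟨_, h⟩ s = algebraMap (Res A) _ (a s)

omit hq in
theorem fb_le_aux (c : ℕ) [NeZero c] [NeZero q] : FB (q * M) ≤ FB (q * (c * M)) := by
  rw [fb_eq_adjoin (q * M), IntermediateField.adjoin_le_iff]
  rintro _ ⟨d, rfl⟩
  exact gen_mem (q * (c * M)) ⟨d.1, d.2.trans (mul_dvd_mul_left q (dvd_mul_left M c))⟩

/-- The inclusion of level `q M` into level `q (c M)`. -/
def auxUp (c : ℕ) [NeZero c] : FB (q * M) →ₐ[QBar] FB (q * (c * M)) :=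
  IntermediateField.inclusion (fb_le_aux q M c)

theorem coe_auxUp (c : ℕ) [NeZero c] (x : FB (q * M)) :
    (auxUp q M c x : LSer) = (x : LSer) :=
  IntermediateField.coe_inclusion (fb_le_aux q M c) x

theorem wEquiv_auxUp (c : ℕ) [NeZero c] (hqcM : ¬ q ∣ c * M) (x : FB (q * M)) :
    wEquiv q (c * M) hqcM (auxUp q M c x) = auxUp q M c (wEquiv q M hqM x) := by
  refine DFunLike.congr_fun (?_ : (wEquiv q (c * M) hqcM).toRingEquiv.toRingHom.comp
      (auxUp q M c).toRingHom =
    (auxUp q M c).toRingHom.comp (wEquiv q M hqM).toRingEquiv.toRingHom) x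
  refine fb_ringHom_ext (fun a => ?_) fun d => ?_
  · show wEquiv q (c * M) hqcM (auxUp q M c (algebraMap QBar _ a)) =
      auxUp q M c (wEquiv q M hqM (algebraMap QBar _ a))
    simp
  · show wEquiv q (c * M) hqcM (auxUp q M c (genF (q * M) d)) =
      auxUp q M c (wEquiv q M hqM (genF (q * M) d))
    refine Subtype.ext ?_
    rw [coe_auxUp]
    obtain ⟨d, hd⟩ := d
    have : NeZero d := ⟨fun h => by
      subst h
      exact NeZero.ne (q * M) (Nat.eq_zero_of_zero_dvd hd)⟩
    have hd' : d ∣ q * (c * M) := hd.trans (mul_dvd_mul_left q (dvd_mul_left M c))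
    have he : auxUp q M c (genF (q * M) ⟨d, hd⟩) = genF (q * (c * M)) ⟨d, hd'⟩ :=
      Subtype.ext (coe_auxUp q M c _)
    rw [he]
    by_cases hqd : q ∣ d
    · obtain ⟨e, rfl⟩ := hqd
      have : NeZero e := ⟨fun h => NeZero.ne (q * e) (by rw [h, mul_zero])⟩
      have he' : e ∣ M := (Nat.mul_dvd_mul_iff_left hq.out.pos).mp hd
      exact (wEquiv_gen_mul q (c * M) hqcM (he'.trans (dvd_mul_left M c))).trans
        (wEquiv_gen_mul q M hqM he').symm
    · have hdM : d ∣ M :=
        (Nat.Coprime.dvd_of_dvd_mul_left ((hq.out.coprime_iff_not_dvd.mpr hqd).symm) hd)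
      exact (wEquiv_gen_of_dvd q (c * M) hqcM (hdM.trans (dvd_mul_left M c))).trans
        (wEquiv_gen_of_dvd q M hqM hdM).symm

theorem iota2_auxUp (c : ℕ) [NeZero c] (hqcM : ¬ q ∣ c * M) (x : FB (q * M)) (s : Fin 2) :
    iota2 (c * M) q hqcM s (auxUp q M c x) = iota2 M q hqM s x := by
  fin_cases s
  · show iota2 (c * M) q hqcM 0 _ = iota2 M q hqM 0 _
    rw [iota2_zero, iota2_zero, coe_auxUp]
  · show iota2 (c * M) q hqcM 1 _ = iota2 M q hqM 1 _
    rw [iota2_one, iota2_one, wEquiv_auxUp q M hqM c hqcM, coe_auxUp]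

end Fermat.Agent.RT.Mazur

end
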