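import Fermat.Agent.RT.LowerP.Classes
import Fermat.Agent.FiniteFlat.Injective

/-!
# Eigen classes: the quadratic relations and the eigenvalues at further primes

Classes with the
eigenvalues of a residually irreducible curve outside a finite set satisfy its quadratic
relations and have its eigenvalues at all good primes away from the level and `p`.
-/

set_option autoImplicit false
set_option synthInstance.maxHeartbeats 400000
set_option maxHeartbeats 1000000

noncomputable section

open ModularCurve AlgebraicCurve CongruenceSubgroup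
open Fermat.Agent.Semistable Fermat.Agent.Arith
open Fermat.Agent.RT.MazurP (IsEigen)

namespace Fermat.Agent.RT.Mazur

attribute [local instance] LowerP.torModule

section Curve

variable {W : WeierstrassCurve ℤ} {p : ℕ} [Fact p.Prime] {N : ℕ} [NeZero N]

open Fermat.Agent.EC.Rep (residualRep charpoly_residualRep_frobenius)

/-- The eigenvalues of the curve outside a finite set give its quadratic relations. -/
theorem eigen_quadratic (hΔ : W.Δ ≠ 0) (G : ℕ → Prop) (T : Finset ℕ)
    (hT : ∀ l : ℕ, l.Prime → W.IsGoodPrimeFor l → ¬ l ∣ N * p → l ∉ T → G l)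
    {x : JZero N} (hpx : p • x = 0) (heig : IsEigen N G W.apOfModel x) (g : GQ) (t d : ℤ)
    (ht : LinearMap.trace (ZMod p) _ ((residualRep W p hΔ).ρ g) = (t : ZMod p))
    (hd : LinearMap.det ((residualRep W p hΔ).ρ g) = (d : ZMod p)) :
    g • g • x - t • g • x + d • x = 0 := by
  classical
  set ρ := residualRep W p hΔ
  let V := LowerP.Tor N p
  set xT : V := ⟨x, Pic0.mem_torsion.mpr (by rw [natCast_zsmul]; exact hpx)⟩
  have : Finite V := JacTorsion.finite_torsion_JZero N p
  let ψ : GQ →* Module.End (ZMod p) V := LowerP.torRep N p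
  obtain ⟨L₀, hL₀, hρ⟩ := ρ.factorsThroughFiniteLevel
  choose L hLfin hL using fun y : V => GaloisReps.exists_fixing_torsion N y
  have : ∀ y, FiniteDimensional ℚ (L y) := hLfin
  obtain ⟨l, hl, hlS, B, hB, s, hs, he⟩ := Arith.Chebotarev.exists_frobenius_eq
    (ψ.prod ρ.ρ) (L₀ ⊔ ⨆ y, L y) (fun τ hτ => Prod.ext
      (LinearMap.ext fun y => Subtype.ext (hL y τ fun z hz =>
        hτ z ((le_sup_right : _ ≤ L₀ ⊔ ⨆ y, L y) (le_iSup L y hz))))
      (hρ τ fun z hz => hτ z ((le_sup_left : L₀ ≤ L₀ ⊔ ⨆ y, L y) hz))) g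
    (T ∪ ((N * p).primeFactors ∪ W.Δ.natAbs.primeFactors))
  simp only [Finset.mem_union, not_or] at hlS
  have hgood : W.IsGoodPrimeFor l := fun h => hlS.2.2 (Nat.mem_primeFactors.mpr
    ⟨hl, Int.natCast_dvd.mp h, Int.natAbs_ne_zero.mpr hΔ⟩)
  have hlNp : ¬ l ∣ N * p := fun h => hlS.2.1 (Nat.mem_primeFactors.mpr
    ⟨hl, h, mul_ne_zero (NeZero.ne N) (Fact.out : p.Prime).ne_zero⟩)
  have hlN : ¬ l ∣ N := fun h => hlNp (h.mul_right p)
  have hlp : ¬ l ∣ p := fun h => hlNp (h.mul_left N)
  have hne : l ≠ p := fun h => hlp (h ▸ dvd_rfl)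
  have hG : G l := hT l hl hgood hlNp hlS.1
  have he1 : ψ s = ψ g := congrArg Prod.fst he
  have he2 : ρ.ρ s = ρ.ρ g := congrArg Prod.snd he
  have hgs : ∀ y : V, g • (y : JZero N) = s • (y : JZero N) := fun y =>
    congrArg Subtype.val (LinearMap.congr_fun he1.symm y)
  have hp' : ∀ {u : JZero N} {i j : ℤ}, p • u = 0 → (i : ZMod p) = (j : ZMod p) → i • u = j • u := by
    intro u i j hu hij
    obtain ⟨k, hk⟩ := (ZMod.intCast_eq_intCast_iff_dvd_sub i j p).mp hij
    rw [← sub_eq_zero, ← sub_smul, show i - j = -((p : ℤ) * k) by linarith, neg_zsmul, mul_comm,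
      mul_zsmul, natCast_zsmul, hu, zsmul_zero, neg_zero]
  have h := charpoly_residualRep_frobenius hΔ hl hgood hne hB hs
  rw [EC.FrobTrace.charpoly_of_finrank_eq_two ρ.finrank_eq] at h
  have h0 := congrArg (fun f => Polynomial.coeff f 0) h
  have h1 := congrArg (fun f => Polynomial.coeff f 1) h
  simp [Polynomial.coeff_natCast_ite] at h0 h1
  rw [he2, hd] at h0
  rw [he2, ht] at h1
  have hsx : p • s • x = 0 := by
    rw [← EichlerShimura.galois_smul_nsmul, hpx, EichlerShimura.galois_smul_zero]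
  have hES := EichlerShimura.frobenius_smul_torsion (EichlerShimura.injectiveOnTorsion N) hl hlN
    hB hs (m := p) hlp hpx
  have hT' : heckeOperatorBar N ⟨l, hl⟩ (s • x) = W.apOfModel l • s • x := by
    rw [← GaloisReps.galois_heckeOperatorBar N ⟨l, hl⟩ s x, heig l hl hG]
    exact map_zsmul (DistribSMul.toAddMonoidHom (JZero N) s) _ _
  rw [hT'] at hES
  have hgx : g • x = s • x := hgs xT
  have hggx : g • g • x = s • s • x := by
    rw [hgx]
    exact hgs (ψ s xT)
  rw [hggx, hgx, hp' hsx h1, hp' hpx (h0.trans (Int.cast_natCast l).symm), natCast_zsmul]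
  exact hES

/-- The eigenvalues of the curve outside a finite set give them at all good primes away from the
level and `p`. -/
theorem eigen_extend (hΔ : W.Δ ≠ 0) (G : ℕ → Prop) (T : Finset ℕ)
    (hT : ∀ l : ℕ, l.Prime → W.IsGoodPrimeFor l → ¬ l ∣ N * p → l ∉ T → G l)
    {x : JZero N} (hpx : p • x = 0) (heig : IsEigen N G W.apOfModel x) :
    IsEigen N (fun l => W.IsGoodPrimeFor l ∧ ¬ l ∣ N * p) W.apOfModel x := by
  rintro l hl ⟨hgood, hlNp⟩
  have hlN : ¬ l ∣ N := fun h => hlNp (h.mul_right p)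
  have hlp : ¬ l ∣ p := fun h => hlNp (h.mul_left N)
  obtain ⟨B, hB⟩ := Arith.exists_liesOverPrime hl
  obtain ⟨s, hs⟩ := Arith.exists_isFrobeniusAt hB hl
  have h := charpoly_residualRep_frobenius hΔ hl hgood (fun h => hlp (h ▸ dvd_rfl)) hB hs
  rw [EC.FrobTrace.charpoly_of_finrank_eq_two (residualRep W p hΔ).finrank_eq] at h
  have h0 := congrArg (fun f => Polynomial.coeff f 0) h
  have h1 := congrArg (fun f => Polynomial.coeff f 1) h
  simp [Polynomial.coeff_natCast_ite] at h0 h1
  set x' := s⁻¹ • x with hx'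
  have hsx' : s • x' = x := smul_inv_smul s x
  have hpx' : p • x' = 0 := by
    rw [hx', ← EichlerShimura.galois_smul_nsmul, hpx, EichlerShimura.galois_smul_zero]
  have heig' : IsEigen N G W.apOfModel x' := fun l' hl' hG' => by
    rw [hx', ← GaloisReps.galois_heckeOperatorBar N ⟨l', hl'⟩ s⁻¹ x, heig l' hl' hG']
    exact map_zsmul (DistribSMul.toAddMonoidHom (JZero N) s⁻¹) _ _
  have h4 := eigen_quadratic hΔ G T hT hpx' heig' s (W.apOfModel l) (l : ℤ) h1
    (h0.trans (Int.cast_natCast l).symm)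
  have h3 := EichlerShimura.frobenius_smul_torsion (EichlerShimura.injectiveOnTorsion N) hl hlN
    hB hs (m := p) hlp hpx'
  rw [hsx'] at h3 h4
  rw [natCast_zsmul] at h4
  have h5 := h4.trans h3.symm
  simpa using h5.symm

end Curve

end Fermat.Agent.RT.Mazur

end
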