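import Fermat.Agent.RT.Mazur.Principle.Red
import Fermat.Agent.RT.Mazur.Orders
import Fermat.Agent.RT.Mazur.Rational
import Fermat.Agent.RT.MazurP.Level
import Fermat.Agent.Semistable.Torsion
import Fermat.Agent.RT.MazurP.Lift
import Fermat.Agent.RT.MazurP.Theta
import Fermat.Agent.RT.MazurP.Units
import Fermat.Agent.FiniteFlat.Instance

/-!
# Specialising an inertia fixed eigen class at `q`

Such a class has a fixed Kummer function with both reductions nonzero; then either one of the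
reductions is a nontrivial eigen reduction at level `M`, or the Kummer function can be changed
to one with constant reductions.
-/

set_option autoImplicit false
set_option synthInstance.maxHeartbeats 400000
set_option maxHeartbeats 1000000

noncomputable section

namespace Fermat.Agent.RT.Mazur

open ModularCurve AlgebraicCurve
open Fermat.Agent.Semistable Fermat.Agent.Arith
open Fermat.Agent.RT.MazurP (IsRed IsEigen IsHeckeImage CoefField unramField heckeNorm)

variable {q M : ℕ} [hq : Fact q.Prime] [NeZero M] {A : ValuationSubring QBar}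

theorem leadingCoeff_algebraMap_mul (c : QBar) (y : LSer) :
    (algebraMap QBar LSer c * y).leadingCoeff = c * y.leadingCoeff := by
  rw [HahnSeries.leadingCoeff_mul, algebraMap_laurentSeries_eq_single,
    HahnSeries.leadingCoeff_of_single]

/-- A fixed function of the form `κ * h ^ m`, with `h` of leading coefficient one, has `κ` and
`h` fixed. -/
theorem fix_of_root {N m : ℕ} [NeZero N] (hm : m ≠ 0) {κ : QBar} {h : FB N} (hκ : κ ≠ 0)
    (hh : h ≠ 0) (hlead : (h : LSer).leadingCoeff = 1) {τ : GQ}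
    (hfix : galF N τ (algebraMap QBar (FB N) κ * h ^ m) = algebraMap QBar (FB N) κ * h ^ m) :
    τ κ = κ ∧ galF N τ h = h := by
  have : FF.IsFunctionField QBar (FB N) := EichlerShimura.isFunctionField_bar
  set g := galF N τ h with hg
  have hg0 : g ≠ 0 := (map_ne_zero _).mpr hh
  have hgl : (g : LSer).leadingCoeff = 1 := by
    rw [show (g : LSer) = coeffMap (τ : QBar →+* QBar) (h : LSer) from coe_arithmeticRingAut τ h,
      JacTorsion.coeffMap_leadingCoeff, hlead, map_one]
  rw [map_mul, map_pow, arithmeticRingAut_algebraMap] at hfix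
  have hpowl : ∀ y : LSer, y.leadingCoeff = 1 → ∀ n : ℕ, (y ^ n).leadingCoeff = 1 := by
    intro y hy n
    induction n with
    | zero => rw [pow_zero, HahnSeries.leadingCoeff_one]
    | succ n ih => rw [pow_succ, HahnSeries.leadingCoeff_mul, ih, hy, one_mul]
  have hl := congrArg (fun y : FB N => (y : LSer).leadingCoeff) hfix
  simp only [MulMemClass.coe_mul, SubmonoidClass.coe_pow] at hl
  rw [show ((algebraMap QBar (FB N) (τ κ) : FB N) : LSer) = algebraMap QBar LSer (τ κ)
      from rfl, show ((algebraMap QBar (FB N) κ : FB N) : LSer) =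
      algebraMap QBar LSer κ from rfl, leadingCoeff_algebraMap_mul, leadingCoeff_algebraMap_mul,
    hpowl _ hgl, hpowl _ hlead, mul_one, mul_one] at hl
  refine ⟨hl, ?_⟩
  rw [hl] at hfix
  have hpow : g ^ m = h ^ m := mul_left_cancel₀ ((map_ne_zero _).mpr hκ) hfix
  obtain ⟨c, hc⟩ : ∃ c : QBar, g / h = algebraMap QBar (FB N) c := by
    refine FF.eq_algebraMap_of_ord_nonneg fun v => ?_
    have h1 := congrArg v.ord hpow
    rw [FF.ord_pow v, FF.ord_pow v] at h1
    rw [JacTorsion.ord_div v hg0 hh, mul_left_cancel₀ (Nat.cast_ne_zero.mpr hm) h1, sub_self]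
  have e : g = algebraMap QBar (FB N) c * h := by rw [← hc, div_mul_cancel₀ _ hh]
  have h3 := congrArg (fun y : FB N => (y : LSer).leadingCoeff) e
  simp only [MulMemClass.coe_mul] at h3
  rw [show ((algebraMap QBar (FB N) c : FB N) : LSer) = algebraMap QBar LSer c
    from rfl, leadingCoeff_algebraMap_mul, hgl, hlead, mul_one] at h3
  rw [e, ← h3, map_one, one_mul]

/-- Changing a Kummer function by a power does not change its class. -/
theorem exists_kummer_mul_pow {N p : ℕ} [NeZero N] [NeZero p]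
    (f : JacTorsion.divGrp QBar (FB N) p) {g : FB N} (hg : g ≠ 0) :
    ∃ f' : JacTorsion.divGrp QBar (FB N) p,
      JacTorsion.toTorsion (Additive.ofMul f') = JacTorsion.toTorsion (Additive.ofMul f) ∧
        ((f' : (FB N)ˣ) : FB N) = ((f : (FB N)ˣ) : FB N) * g ^ p := by
  have : FF.IsFunctionField QBar (FB N) := EichlerShimura.isFunctionField_bar
  set u : JacTorsion.divGrp QBar (FB N) p := ⟨Units.mk0 g hg ^ p, fun P => by
    rw [Units.val_pow_eq_pow_val, Units.val_mk0, FF.ord_pow]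
    exact dvd_mul_right _ _⟩ with hu
  refine ⟨f * u, ?_, ?_⟩
  · rw [ofMul_mul, map_add,
      (JacTorsion.toTorsion_eq_zero_iff u).mpr ⟨Units.mk0 g hg, rfl⟩,
      add_zero]
  · rw [hu]
    simp

section Main

variable {p : ℕ} [hp : Fact p.Prime]

/-- The class of `p`-torsion fixed by inertia has a fixed Kummer function with both reductions
nonzero, once some Hecke operator is not congruent to `l + 1` on it. -/
theorem exists_fixed_kummer_red (hqM : ¬ q ∣ M) (hqp : q ≠ p)
    (hE : nuTwo M = 0 ∧ nuThree M = 0) (hA : A.LiesOverPrime q)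
    {x : JZero (q * M)} (hpx : p • x = 0) (hfix : ∀ τ ∈ A.inertiaSubgroupIn ℚ, τ • x = x)
    (l : ℕ) (hl : l.Prime) (hlN : ¬ l ∣ q * M) (al : ℤ)
    (hx : heckeOperatorBar (q * M) ⟨l, hl⟩ x = al • x) (hne : ¬ (p : ℤ) ∣ al - ((l : ℤ) + 1)) :
    ∃ f : JacTorsion.divGrp QBar (FB (q * M)) p,
      (JacTorsion.toTorsion (Additive.ofMul f) : JZero (q * M)) = x ∧
      InertiaFixed A (((f : (FB (q * M))ˣ) : FB (q * M)) : LSer) ∧
      ∃ h : ((f : (FB (q * M))ˣ) : FB (q * M)) ∈ loc2 A (iota2 M q hqM),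
        ∀ s, red2 A (iota2 M q hqM) ⟨_, h⟩ s ≠ 0 := by
  have hq' : q.Prime := hq.out
  have := Arith.residueField_charP hA hq'
  have := Arith.residueField_isAlgClosed A
  have hM := natCast_level_ne_zero hA hqM
  have := isFunctionField_KM (A := A) (M := M) hM
  have : FF.IsFunctionField QBar (FB (q * M)) := EichlerShimura.isFunctionField_bar
  have : NeZero l := ⟨hl.ne_zero⟩
  have hgM : GoodM A M := (FiniteFlat.genusFF_residue_eq hM).ge
  set C : CoefField A q := unramField hA with hC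
  obtain ⟨f, hfx, -, hff⟩ := exists_fixed_kummer (m := p)
    (S := arithmeticGalois (modularFunctionFieldFull (q * M)) '' (C.H : Set GQ))
    (P₀ := Mazur.Eisenstein.placeInf (q * M))
    (by rintro _ ⟨τ, -, rfl⟩; exact galois_smul_placeInf τ)
    (fun y : FB (q * M) => (y : LSer).leadingCoeff)
    (fun c y => leadingCoeff_algebraMap_mul c _)
    (fun y hy => HahnSeries.leadingCoeff_ne_zero.mpr fun h => hy (Subtype.ext h))
    (by rintro _ ⟨τ, -, rfl⟩ y; exact JacTorsion.coeffMap_leadingCoeff (τ : QBar →+* QBar) _)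
    (x := ⟨x, Pic0.mem_torsion.mpr (by rw [natCast_zsmul]; exact hpx)⟩)
    (by rintro _ ⟨τ, hτ, rfl⟩; exact hfix τ hτ)
  set F : FB (q * M) := ((f : (FB (q * M))ˣ) : FB (q * M)) with hF
  have hF0 : F ≠ 0 := Units.ne_zero _
  have hFfix : ∀ τ ∈ C.H, galF (q * M) τ F = F := fun τ hτ => hff _ ⟨τ, hτ, rfl⟩
  have hFs : ∀ s, iota2 M q hqM s F ∈ fracS A := fun s => iota2_fracS M q hqM s F
  have hFs0 : ∀ s, iota2 M q hqM s F ≠ 0 := fun s => (map_ne_zero _).mpr hF0
  have hFsfix : ∀ s, C.Fix (iota2 M q hqM s F) := fun s τ hτ => by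
    rw [← MazurP.iota2_galF, hFfix τ hτ]
  set v : Fin 2 → ℤ := fun s => C.gord (iota2 M q hqM s F) with hv
  -- the difference of the orders
  have hx' : heckeOperatorBar (q * M) ⟨l, hl⟩
      (JacTorsion.toTorsion (Additive.ofMul f) : JZero (q * M)) =
      al • (JacTorsion.toTorsion (Additive.ofMul f) : JZero (q * M)) := by
    rw [hfx]; exact hx
  obtain ⟨h₀, hh₀, e₀⟩ := MazurP.exists_heckeNorm_eq (N := q * M) (m := p) l hl f al hx'
  rw [← hF] at e₀
  set c := (h₀ : LSer).leadingCoeff with hc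
  have hc0 : c ≠ 0 := HahnSeries.leadingCoeff_ne_zero.mpr fun h => hh₀ (Subtype.ext h)
  set h : FB (q * M) := algebraMap QBar (FB (q * M)) c⁻¹ * h₀ with hh
  have hh0 : h ≠ 0 := mul_ne_zero ((map_ne_zero _).mpr (inv_ne_zero hc0)) hh₀
  have hlead : (h : LSer).leadingCoeff = 1 := by
    show (algebraMap QBar LSer c⁻¹ * (h₀ : LSer)).leadingCoeff = 1
    rw [leadingCoeff_algebraMap_mul, ← hc, inv_mul_cancel₀ hc0]
  set κ := c ^ p with hκ
  have hκ0 : κ ≠ 0 := pow_ne_zero _ hc0
  have e : heckeNorm (q * M) l F = algebraMap QBar (FB (q * M)) κ * F ^ al * h ^ p := by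
    rw [e₀, hh, hκ, map_pow, mul_pow, map_inv₀, inv_pow]
    field_simp [(map_ne_zero (algebraMap QBar (FB (q * M)))).mpr hc0]
  have hfixh : ∀ τ ∈ C.H, τ κ = κ ∧ galF (q * M) τ h = h := by
    intro τ hτ
    refine fix_of_root hp.out.ne_zero hκ0 hh0 hlead ?_
    have hN := congrArg (galF (q * M) τ) e
    rw [← MazurP.heckeNorm_galF hl hlN, hFfix τ hτ, e, map_mul, map_mul, map_zpow₀,
      hFfix τ hτ] at hN
    refine mul_right_cancel₀ (zpow_ne_zero al hF0) ?_
    rw [map_mul]
    linear_combination -hN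
  have key : ∀ s, C.gord (algebraMap QBar LSer κ) + p * C.gord (iota2 M q hqM s h) =
      ((l : ℤ) + 1 - al) * v s := by
    intro s
    have hκfix : C.Fix (algebraMap QBar LSer κ) :=
      CoefField.fix_algebraMap fun τ hτ => (hfixh τ hτ).1
    have hhs : iota2 M q hqM s h ≠ 0 := (map_ne_zero _).mpr hh0
    have hfh : C.Fix (iota2 M q hqM s h) := fun τ hτ => by
      rw [← MazurP.iota2_galF, (hfixh τ hτ).2]
    have hhf' : iota2 M q hqM s h ∈ fracS A := iota2_fracS M q hqM s _
    have hgz : ∀ n : ℤ, C.gord (iota2 M q hqM s F ^ n) = n * v s := by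
      intro n
      rcases Int.eq_nat_or_neg n with ⟨i, rfl | rfl⟩
      · rw [zpow_natCast, CoefField.gord_pow hA hq' (hFs s) (hFs0 s) (hFsfix s)]
      · rw [zpow_neg, zpow_natCast, CoefField.gord_inv hA hq' (pow_mem (hFs s) i)
          (pow_ne_zero i (hFs0 s)) ((hFsfix s).pow i),
          CoefField.gord_pow hA hq' (hFs s) (hFs0 s) (hFsfix s), neg_mul]
    have h1 := MazurP.gord_heckeImage hA hq' C (hFs s) (hFs0 s) (hFsfix s)
      (iota2_fracS M q hqM s _)
      (fun ζ hζ => MazurP.qExpand_iota2_heckeNorm q M l hqM hl hlN s hζ F)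
    rw [e, map_mul, map_mul, AlgHom.commutes, map_pow (iota2 M q hqM s) h p, map_zpow₀,
      CoefField.gord_mul hA hq' (mul_mem (algebraMap_mem_fracS _) (zpow_mem (hFs s) al))
        (pow_mem hhf' p) (mul_ne_zero ((map_ne_zero _).mpr hκ0) (zpow_ne_zero _ (hFs0 s)))
        (pow_ne_zero _ hhs) (hκfix.mul ((hFsfix s).zpow al)) (hfh.pow p),
      CoefField.gord_mul hA hq' (algebraMap_mem_fracS _) (zpow_mem (hFs s) al)
        ((map_ne_zero _).mpr hκ0) (zpow_ne_zero _ (hFs0 s)) hκfix ((hFsfix s).zpow al),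
      hgz, CoefField.gord_pow hA hq' hhf' hhs hfh] at h1
    linarith
  obtain ⟨d, hd⟩ : (p : ℤ) ∣ v 1 - v 0 := by
    have h1 : ((l : ℤ) + 1 - al) * (v 1 - v 0) =
        p * (C.gord (iota2 M q hqM 1 h) - C.gord (iota2 M q hqM 0 h)) := by
      linear_combination (-1 : ℤ) * key 1 + key 0
    exact ((Nat.prime_iff_prime_int.mp hp.out).dvd_mul.mp (Dvd.intro _ h1.symm)).resolve_left
      fun h' => hne (by rw [← neg_sub]; exact dvd_neg.mpr h')
  -- a fixed function with reductions one and difference of orders `d`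
  obtain ⟨V⟩ := MazurP.exists_vUnit (A := A) hA hM hqM
  obtain ⟨φ, hφ0, hφfix, hφ⟩ := MazurP.exists_fixed_pair (C := C) hA hM V
    (MazurP.VUnit.simple_of_noEll hA hM hE hgM V) (fun _ => 1) (fun _ => one_ne_zero) d
  obtain ⟨r, hr⟩ := IsAlgClosed.exists_pow_nat_eq (C.π ^ (-(v 0))) hp.out.pos
  have hr0 : r ≠ 0 := fun h0 => zpow_ne_zero (-(v 0)) C.π_ne_zero (by
    rw [← hr, h0, zero_pow hp.out.ne_zero])
  obtain ⟨f', hf'x, hf'e⟩ := exists_kummer_mul_pow (p := p) f
    (g := algebraMap QBar (FB (q * M)) r / φ) (div_ne_zero ((map_ne_zero _).mpr hr0) hφ0)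
  rw [← hF, div_pow, ← map_pow, hr] at hf'e
  refine ⟨f', by rw [hf'x, hfx], fun τ hτ => ?_, ?_⟩
  · rw [← coe_arithmeticRingAut, hf'e]
    refine congrArg Subtype.val ?_
    rw [map_mul, map_div₀, map_pow, arithmeticRingAut_algebraMap, map_zpow₀, hφfix τ hτ,
      hFfix τ hτ, C.π_fixed τ hτ]
  have hside : ∀ s, ∃ hs : iota2 M q hqM s ((f' : (FB (q * M))ˣ) : FB (q * M)) ∈ locS A,
      redL A ⟨_, hs⟩ ≠ 0 := by
    intro s
    obtain ⟨hy, hyne⟩ := CoefField.gord_spec hA hq' (hFs s) (hFs0 s) (hFsfix s)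
    obtain ⟨hps, hpr⟩ := hφ s
    have hpn : redL A ⟨_, hps⟩ ≠ 0 := by rw [hpr]; exact one_ne_zero
    obtain ⟨hpi, hpir⟩ := inv_mem_locS hps hpn
    have he : iota2 M q hqM s ((f' : (FB (q * M))ˣ) : FB (q * M)) =
        algebraMap QBar LSer (C.π ^ (-v s)) * iota2 M q hqM s F *
          (algebraMap QBar LSer (C.π ^ (-(![0, d] s))) * iota2 M q hqM s φ)⁻¹ ^ p := by
      have hexp : -v s - -(![0, d] s) * (p : ℤ) = -v 0 := by
        fin_cases s
        · simp
        · simp only [Fin.mk_one, Matrix.cons_val_one, Matrix.cons_val_zero]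
          linear_combination -hd
      have hb : algebraMap QBar LSer (C.π ^ (-(![0, d] s))) ^ p =
          algebraMap QBar LSer (C.π ^ (-(![0, d] s) * (p : ℤ))) := by
        rw [← map_pow, ← zpow_natCast, ← zpow_mul]
      rw [hf'e, map_mul, map_div₀, map_pow, AlgHom.commutes, inv_pow, mul_pow, hb, ← hexp,
        zpow_sub₀ C.π_ne_zero, map_div₀ (algebraMap QBar LSer), div_div, mul_div_assoc',
        div_eq_mul_inv]
      ring
    have hm' := mul_mem hy (pow_mem hpi p)
    refine ⟨by rw [he]; exact hm', ?_⟩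
    rw [redL_congr _ hm' he]
    intro h0
    have h3 := (MazurP.redL_mul' hy (pow_mem hpi p)).symm.trans h0
    rw [MazurP.redL_pow' hpi, hpir] at h3
    exact mul_ne_zero hyne (pow_ne_zero p (inv_ne_zero hpn)) h3
  choose hloc hred using hside
  exact ⟨(mem_loc2 _).mpr hloc, fun s => by rw [red2_apply]; exact hred s⟩

/-- A fixed eigen class has constant reductions or gives an eigen reduction at level `M`. -/
theorem hasConstRed_or_eigenRed (hqM : ¬ q ∣ M) (hqp : q ≠ p) (hE : nuTwo M = 0 ∧ nuThree M = 0)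
    (hA : A.LiesOverPrime q)
    (G : ℕ → Prop) (a : ℕ → ℤ) (hG : ∀ l : ℕ, l.Prime → G l → ¬ l ∣ q * M * p)
    (hEis : ∃ l : ℕ, l.Prime ∧ G l ∧ ¬ (p : ℤ) ∣ a l - ((l : ℤ) + 1))
    {x : JZero (q * M)} (hpx : p • x = 0) (hfix : ∀ τ ∈ A.inertiaSubgroupIn ℚ, τ • x = x)
    (heig : IsEigen (q * M) G a x) :
    HasConstRed q M hqM A p x ∨
      ∃ z : LaurentSeries (Res A), IsEigenRed A M p G a z ∧ ¬ IsTrivRed A M p z := by
  have hq' : q.Prime := hq.out
  have := Arith.residueField_charP hA hq'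
  have := Arith.residueField_isAlgClosed A
  have hM := natCast_level_ne_zero hA hqM
  have := isFunctionField_KM (A := A) (M := M) hM
  have : FF.IsFunctionField QBar (FB (q * M)) := EichlerShimura.isFunctionField_bar
  have hgM : GoodM A M := (FiniteFlat.genusFF_residue_eq hM).ge
  obtain ⟨l₀, hl₀, hGl₀, hne₀⟩ := hEis
  obtain ⟨f, hfx, hfi, hf, hne⟩ := exists_fixed_kummer_red hqM hqp hE hA hpx hfix l₀ hl₀
    (fun h => hG l₀ hl₀ hGl₀ (h.mul_right p)) (a l₀) (heig l₀ hl₀ hGl₀) hne₀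
  set F : loc2 A (iota2 M q hqM) := ⟨_, hf⟩
  set r : Fin 2 → LaurentSeries (Res A) := fun s => red2 A (iota2 M q hqM) F s with hr
  have hdiv : ∀ v : Place QBar (FB (q * M)), (p : ℤ) ∣ v.ord (F : FB (q * M)) :=
    fun v => f.2 v
  have hrK : ∀ s, r s ∈ KM A M := fun s => red2_mem_KM M q hqM hM F s
  have hord : ∀ (s : Fin 2) (P : Place (Res A) (KM A M)), (p : ℤ) ∣ P.ord ⟨r s, hrK s⟩ :=
    fun s P => dvd_ord_red_of_noEll hA hE hgM hp.out.pos hfi hdiv hne hM s P
  have hrRed : ∀ s, IsRed A (iota2 M q hqM s (F : FB (q * M))) (r s) := fun s => by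
    have h1 := hne s
    rw [red2_apply] at h1
    exact IsRed.of_locS _ h1
  have heigen : ∀ s, IsEigenRed A M p G a (r s) := by
    intro s
    refine ⟨hne s, ⟨hrK s, hord s⟩, fun l _ hl hGl => ?_⟩
    have hlN : ¬ l ∣ q * M := fun h => hG l hl hGl (h.mul_right p)
    have hql : ¬ q ∣ l := fun h =>
      hlN ((Nat.prime_dvd_prime_iff_eq hq' hl).mp h ▸ dvd_mul_right q M)
    have hx' : heckeOperatorBar (q * M) ⟨l, hl⟩
        (JacTorsion.toTorsion (Additive.ofMul f) : JZero (q * M)) =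
        a l • (JacTorsion.toTorsion (Additive.ofMul f) : JZero (q * M)) := by
      rw [hfx]; exact heig l hl hGl
    obtain ⟨h₀, hh₀, e₀⟩ := MazurP.exists_heckeNorm_eq (N := q * M) (m := p) l hl f (a l) hx'
    obtain ⟨X, hX, hXi⟩ := MazurP.exists_isRed_heckeImage hA hq' hql
      (iota2_fracS M q hqM s (heckeNorm (q * M) l (F : FB (q * M))))
      (fun ζ hζ => MazurP.qExpand_iota2_heckeNorm q M l hqM hl hlN s hζ (F : FB (q * M)))
      (hrRed s)
    obtain ⟨w, hw⟩ := IsRed.exists_of_ne_zero hA hq' (iota2_fracS M q hqM s h₀)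
      ((_root_.map_ne_zero _).mpr hh₀)
    have hwK : w ∈ KM A M := MazurP.isRed_mem_KM q M hqM hA hM hw
    have hY : IsRed A (iota2 M q hqM s (heckeNorm (q * M) l (F : FB (q * M))))
        (r s ^ a l * w ^ p) := by
      rw [e₀, map_mul, map_zpow₀, map_pow]
      exact ((hrRed s).zpow _).mul (hw.pow p)
    obtain ⟨u, hu, hue⟩ := hY.unique hX
    refine ⟨X, hXi, u, hu, w, hwK, ?_⟩
    have h0 : r s ^ a l ≠ 0 := zpow_ne_zero _ (hne s)
    rw [hue, MazurP.algebraMap_eq_C]
    field_simp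
  by_cases hcase : ∀ s, IsTrivRed A M p (r s)
  · left
    choose u hu w hw hrw using hcase
    have hw0 : ∀ s, w s ≠ 0 := fun s h0 => hne s (by
      show r s = 0
      rw [hrw, h0, zero_pow hp.out.ne_zero, mul_zero])
    obtain ⟨H, hH⟩ := red2_surjective (A := A) M q hqM hM (hw 0) (hw 1)
    have hHs : ∀ s, red2 A (iota2 M q hqM) H s = w s := fun s => by
      rw [hH]; fin_cases s <;> rfl
    obtain ⟨hHi, hHir⟩ := inv_mem_loc2 (iota2 M q hqM) H (fun s => by rw [hHs]; exact hw0 s)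
    have hH0 : (H : FB (q * M)) ≠ 0 := fun h0 => hw0 0 (by
      rw [← hHs, show H = 0 from Subtype.ext h0, map_zero]; rfl)
    obtain ⟨f', hf'x, hf'e⟩ := exists_kummer_mul_pow (p := p) f (g := (H : FB (q * M))⁻¹)
      (inv_ne_zero hH0)
    have he : ((f' : (FB (q * M))ˣ) : FB (q * M)) =
        ((F * ⟨_, hHi⟩ ^ p : loc2 A (iota2 M q hqM)) : FB (q * M)) := by
      rw [hf'e, MulMemClass.coe_mul, SubmonoidClass.coe_pow]
    refine ⟨f', by rw [hf'x, hfx], by rw [he]; exact SetLike.coe_mem _, u, hu, fun s => ?_⟩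
    rw [show (⟨((f' : (FB (q * M))ˣ) : FB (q * M)), by rw [he]; exact SetLike.coe_mem _⟩ :
      loc2 A (iota2 M q hqM)) = F * ⟨_, hHi⟩ ^ p from Subtype.ext he, map_mul, map_pow, Pi.mul_apply, Pi.pow_apply, hHir, hHs]
    show r s * (w s)⁻¹ ^ p = _
    rw [hrw, inv_pow, mul_inv_cancel_right₀ (pow_ne_zero _ (hw0 s)), MazurP.algebraMap_eq_C]
  · right
    obtain ⟨s, hs⟩ := not_forall.mp hcase
    exact ⟨r s, heigen s, hs⟩

end Main

end Fermat.Agent.RT.Mazur

end
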