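import Fermat.Agent.RT.Mazur.Principle.Defs
import Fermat.Agent.Semistable.Torsion
import Fermat.Agent.GaloisReps.HeckeGalois

/-!
# The involution on classes, and Frobenius on classes with constant reductions
-/

set_option autoImplicit false
set_option synthInstance.maxHeartbeats 400000
set_option maxHeartbeats 1000000

noncomputable section

namespace Fermat.Agent.RT.Mazur

open ModularCurve AlgebraicCurve
open Fermat.Agent.Semistable Fermat.Agent.Arith

variable {q M : ℕ} [hq : Fact q.Prime] [NeZero M] {A : ValuationSubring QBar}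

theorem wPic_apply (hqM : ¬ q ∣ M) (x : JZero (q * M)) :
    wPic q M hqM x = SemilinearAut.ofAlgAut (wEquiv q M hqM) • x := rfl

theorem galois_wPic (hqM : ¬ q ∣ M) (σ : GQ) (x : JZero (q * M)) :
    σ • wPic q M hqM x = wPic q M hqM (σ • x) := by
  set g := arithmeticGalois (modularFunctionFieldFull (q * M)) σ with hg
  set w := SemilinearAut.ofAlgAut (wEquiv q M hqM) with hw
  show g • w • x = w • g • x
  rw [smul_smul, smul_smul]
  congr 1
  refine Subtype.ext (Prod.ext ?_ ?_)
  · refine RingEquiv.ext fun y => Subtype.ext ?_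
    show ((g • (w • y) : FB (q * M)) : LSer) = ((w • (g • y) : FB (q * M)) : LSer)
    rw [hw, SemilinearAut.ofAlgAut_smul, SemilinearAut.ofAlgAut_smul, hg]
    show (galF (q * M) σ (wEquiv q M hqM y) : LSer) = (wEquiv q M hqM (galF (q * M) σ y) : LSer)
    exact congrArg Subtype.val (wEquiv_galois q M hqM σ y).symm
  · exact RingEquiv.ext fun a => rfl

theorem wPic_wPic (hqM : ¬ q ∣ M) (x : JZero (q * M)) : wPic q M hqM (wPic q M hqM x) = x := by
  rw [wPic_apply, wPic_apply, smul_smul]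
  set w := SemilinearAut.ofAlgAut (wEquiv q M hqM) with hw
  have h : w * w = 1 := by
    refine Subtype.ext (Prod.ext ?_ ?_)
    · refine RingEquiv.ext fun y => ?_
      show w • w • (y : FB (q * M)) = y
      rw [hw, SemilinearAut.ofAlgAut_smul, SemilinearAut.ofAlgAut_smul, wEquiv_wEquiv]
    · exact RingEquiv.ext fun a => rfl
  rw [h, one_smul]

theorem wPic_heckeBar (hqM : ¬ q ∣ M) (ℓ : Nat.Primes) (hlN : ¬ (ℓ : ℕ) ∣ q * M)
    (x : JZero (q * M)) :
    wPic q M hqM (heckeOperatorBar (q * M) ℓ x) =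
      heckeOperatorBar (q * M) ℓ (wPic q M hqM x) := by
  have : NeZero (ℓ : ℕ) := ⟨ℓ.2.ne_zero⟩
  have : NeZero (q * M * (ℓ : ℕ)) := ⟨Nat.mul_ne_zero (NeZero.ne _) ℓ.2.ne_zero⟩
  have : FF.IsFunctionField QBar (FB (q * M)) := ModFun.isFunctionField_bar (q * M)
  have : FF.IsFunctionField QBar (FB (q * M * (ℓ : ℕ))) :=
    ModFun.isFunctionField_bar (q * M * (ℓ : ℕ))
  obtain ⟨W, hWa, hWb⟩ :=
    MazurP.exists_wLift q M ℓ hqM (fun h => hlN (h ▸ dvd_mul_right q M)) ℓ.2
  rw [wPic_apply, wPic_apply, heckeOperatorBar_apply, heckeOperatorBar_apply,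
    heckeOperatorAlong_eq (FF.isIntegralAlong _) (FF.isIntegralAlong _)
      (FF.fundamentalIdentityAlong _ _) (FF.finiteAlong _) (FF.normFormulaAlong _ _)]
  refine GaloisReps.correspondence_smul (SemilinearAut.ofAlgAut (wEquiv q M hqM))
    (SemilinearAut.ofAlgAut W) _ _ _ _ (fun y => ?_) (fun y => ?_) _ _ _ x
  · rw [SemilinearAut.ofAlgAut_smul, SemilinearAut.ofAlgAut_smul]; exact (hWb y).symm
  · rw [SemilinearAut.ofAlgAut_smul, SemilinearAut.ofAlgAut_smul]; exact (hWa y).symm

theorem wPic_heckeOperatorBar (hqM : ¬ q ∣ M) (l : ℕ) (hl : l.Prime) (hlN : ¬ l ∣ q * M)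
    (x : JZero (q * M)) :
    wPic q M hqM (heckeOperatorBar (q * M) ⟨l, hl⟩ x) =
      heckeOperatorBar (q * M) ⟨l, hl⟩ (wPic q M hqM x) :=
  wPic_heckeBar hqM ⟨l, hl⟩ hlN x

/-- On a class with constant reductions Frobenius is `-q w`. -/
theorem frobenius_add_wPic_eq_zero {p : ℕ} [hp : Fact p.Prime] (hqM : ¬ q ∣ M) (hqp : q ≠ p)
    (hA : A.LiesOverPrime q) {σ : GQ} (hσ : A.IsFrobeniusAt σ q) {x : JZero (q * M)}
    (hconst : HasConstRed q M hqM A p x) : σ • x + q • wPic q M hqM x = 0 := by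
  have := Arith.residueField_charP hA hq.out
  have := Arith.residueField_isAlgClosed A
  have := isFunctionField_KM (A := A) (M := M) (natCast_level_ne_zero hA hqM)
  have h := setup (M := M) hA hqM
  obtain ⟨f, rfl, hf, a, ha, hred⟩ := hconst
  set D : Divisor QBar (FB (q * M)) := JacTorsion.divQuot f with hD
  have hord : ∀ v, v.ord ((f : (FB (q * M))ˣ) : FB (q * M)) = (p : ℤ) * D v := fun v => by
    have h1 := DFunLike.congr_fun (JacTorsion.smul_divQuot f) v
    rw [Finsupp.smul_apply, smul_eq_mul, FF.div_apply] at h1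
    exact h1.symm
  have hk : HasKummer h D p a := ⟨ha, ⟨_, hf⟩, hord, hred⟩
  have key := h.frobenius_add_wAut_principal hσ hp.out.ne_zero
    (fun h' => hqp ((Nat.prime_dvd_prime_iff_eq hq.out hp.out).mp h')) hk
  exact (QuotientAddGroup.eq_zero_iff _).mpr (AddSubgroup.mem_addSubgroupOf.mpr key)

end Fermat.Agent.RT.Mazur

end
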