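import Fermat.Agent.RT.Mazur.Principle.Red
import Fermat.Agent.RT.Interface
import Fermat.Agent.EichlerShimura.Specialization
import Fermat.Agent.FiniteFlat.Injective
import Fermat.Agent.FiniteFlat.Fixed
import Fermat.Agent.CurveTorsion.Main
import Fermat.Agent.Mazur.Eisenstein.RedKernel

/-!
# Mazur's principle: from eigen reductions to eigen torsion classes

Reduction is a bijection on torsion classes of level `M` prime to the residue characteristic and
carries the Hecke operators to the Hecke products, so an eigen reduction gives an eigen class.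
-/

set_option autoImplicit false
set_option synthInstance.maxHeartbeats 400000
set_option maxHeartbeats 1000000
set_option linter.unusedSectionVars false
set_option linter.style.haveILetI false

noncomputable section

namespace Fermat.Agent.RT.Mazur

open ModularCurve AlgebraicCurve
open Fermat.Agent.Semistable Fermat.Agent.Arith Fermat.Agent.FiniteFlat

section Reduction

variable {M : ℕ} [NeZero M] {A : ValuationSubring QBar} (hMA : (M : Res A) ≠ 0)
  [FF.IsFunctionField QBar (FB M)] [FF.IsFunctionField (Res A) (KM A M)] [IsAlgClosed (Res A)]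

include hMA in
/-- A function of level `M` reduces, up to constants, to a function with the reduced divisor. -/
theorem exists_isRed_redDiv {q : ℕ} (hq : q.Prime) (hA : A.LiesOverPrime q) {f : FB M}
    (hf : f ≠ 0) :
    ∃ g : KM A M, g ≠ 0 ∧ MazurP.IsRed A (f : LSer) (g : LaurentSeries (Res A)) ∧
      redDiv (goodRed hMA) (FF.div QBar f) = FF.div (Res A) g := by
  obtain ⟨c, z, hc, hz, hfz⟩ := (lattice hMA).scal f hf
  have hd : redDiv (goodRed hMA) (FF.div QBar f) =
      FF.div (Res A) (redF (lattice hMA) z) := by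
    refine Eq.trans ?_ (redDiv_div (goodRed hMA) z hz)
    rw [hfz]
    refine congrArg _ (div_smul hc ?_)
    exact fun h0 => hf (by rw [hfz, h0, smul_zero])
  refine ⟨_, hz, ⟨fun h0 => hz (Subtype.ext h0), ?_⟩, hd⟩
  obtain ⟨c', hc', hcl, hne⟩ :=
    exists_scale hA hq (mem_fracS_of_mem (A := A) f) (fun h0 => hf (Subtype.ext h0))
  obtain ⟨a, b, hb, hab⟩ := hcl
  obtain ⟨d, p, hd0, hzd⟩ := exists_series_frac hMA z
  have hr := redF_mul_eq hMA z hd0 hzd
  have hfz' : (f : LSer) = algebraMap QBar LSer c * ((z : FB M) : LSer) := by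
    have h := congrArg Subtype.val hfz
    rwa [Algebra.smul_def] at h
  set u := c' * c with hu
  have hu0 : u ≠ 0 := mul_ne_zero hc' hc
  -- the two presentations
  have key : algebraMap QBar LSer u * ((p : LSer) * (b : LSer)) = (a : LSer) * (d : LSer) := by
    rw [← hab, ← hzd, hfz', map_mul]
    ring
  have hsa : ∀ x : intS A, (x : LSer) ∈ RedTorsion.serInt A := fun x =>
    RedTorsion.mem_serInt.mpr (coeff_mem A x)
  have hred : ∀ x : intS A, RedTorsion.serRed A ⟨_, hsa x⟩ = red A x := fun x =>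
    HahnSeries.ext (funext fun n => by rw [RedTorsion.coeff_serRed, coeff_red])
  have hconst : ∀ {e : QBar} (he : e ∈ A), ∃ h : algebraMap QBar LSer e ∈ RedTorsion.serInt A,
      RedTorsion.serRed A ⟨_, h⟩ = algebraMap (Res A) _ (IsLocalRing.residue A ⟨e, he⟩) := by
    intro e he
    exact ⟨hsa ⟨_, algebraMap_mem_intS he⟩, (hred ⟨_, algebraMap_mem_intS he⟩).trans
      (red_algebraMap he)⟩
  have hp0 : RedTorsion.serRed A p ≠ 0 := by
    rw [← hr]
    exact mul_ne_zero (fun h0 => hz (Subtype.ext h0)) hd0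
  have hL : redL A ⟨_, a, b, hb, hab⟩ * red A b = red A a := by
    rw [show redL A ⟨_, a, b, hb, hab⟩ = red A a / red A b from redLFun_eq _ hb hab,
      div_mul_cancel₀ _ hb]
  have ha0 : red A a ≠ 0 := by rw [← hL]; exact mul_ne_zero hne hb
  have hrhs : RedTorsion.serRed A (⟨_, hsa a⟩ * d) ≠ 0 := by
    rw [map_mul, hred]; exact mul_ne_zero ha0 hd0
  have huA : u ∈ A := by
    by_contra hn
    have hiA : u⁻¹ ∈ A := (A.mem_or_inv_mem u).resolve_left hn
    have hin : u⁻¹ ∈ A.nonunits := A.mem_nonunits_iff.mpr (by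
      rw [map_inv₀]
      refine inv_lt_one_of_one_lt₀ ?_
      exact not_le.mp fun h => hn ((A.valuation_le_one_iff u).mp h))
    obtain ⟨hm, he⟩ := hconst hiA
    have e : (p : RedTorsion.serInt A) * ⟨_, hsa b⟩ = ⟨_, hm⟩ * (⟨_, hsa a⟩ * d) :=
      Subtype.ext (by
        show (p : LSer) * (b : LSer) = algebraMap QBar LSer u⁻¹ * ((a : LSer) * (d : LSer))
        rw [← key, ← mul_assoc, ← map_mul, inv_mul_cancel₀ hu0, map_one, one_mul])
    have e' := congrArg (RedTorsion.serRed A) e
    rw [map_mul (RedTorsion.serRed A), map_mul (RedTorsion.serRed A),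
      map_mul (RedTorsion.serRed A), hred, hred, he, (Semistable.residue_eq_zero_iff hiA).mpr hin, map_zero,
      zero_mul] at e'
    exact mul_ne_zero hp0 hb e'
  set ub := IsLocalRing.residue A ⟨u, huA⟩
  obtain ⟨hm, he⟩ := hconst huA
  have e : (⟨_, hm⟩ : RedTorsion.serInt A) * (p * ⟨_, hsa b⟩) = ⟨_, hsa a⟩ * d :=
    Subtype.ext key
  have e' := congrArg (RedTorsion.serRed A) e
  rw [map_mul (RedTorsion.serRed A), map_mul (RedTorsion.serRed A), map_mul (RedTorsion.serRed A),
    he, hred, hred, ← hr, ← hL] at e'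
  have hub : ub ≠ 0 := fun h0 => hrhs (by
    rw [map_mul (RedTorsion.serRed A), hred, ← hL, ← e', show IsLocalRing.residue A ⟨u, huA⟩ = 0 from h0,
      map_zero, zero_mul])
  have hval : redL A ⟨_, a, b, hb, hab⟩ = algebraMap (Res A) _ ub *
      (redF (lattice hMA) z : LaurentSeries (Res A)) := by
    refine mul_right_cancel₀ (mul_ne_zero hb hd0) ?_
    linear_combination -e'
  obtain ⟨w, hwv⟩ := IsLocalRing.residue_surjective ub⁻¹
  obtain ⟨hl, hle⟩ := redL_const_mul w.2 (⟨a, b, hb, hab⟩ : algebraMap QBar LSer c' * (f : LSer) ∈ locS A)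
  refine ⟨(w : QBar) * c', mul_ne_zero (fun h0 => inv_ne_zero hub ?_) hc', ?_, ?_⟩
  · rw [← hwv, show w = 0 from Subtype.ext h0, map_zero]
  · rw [map_mul, mul_assoc]; exact hl
  · rw [redL_congr _ hl (by rw [map_mul, mul_assoc]), hle,
      show (⟨(w : QBar), w.2⟩ : A) = w from rfl, hwv, hval, ← mul_assoc, ← map_mul,
      inv_mul_cancel₀ hub, map_one, one_mul]

include hMA in
/-- The reduction of the class of a Kummer function is the class of its reduction. -/
theorem exists_reduction_toTorsion {q p : ℕ} [NeZero p] (hq : q.Prime) (hA : A.LiesOverPrime q)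
    (f : JacTorsion.divGrp QBar (FB M) p) :
    ∃ g : JacTorsion.divGrp (Res A) (KM A M) p,
      MazurP.IsRed A (((f : (FB M)ˣ) : FB M) : LSer)
        (((g : (KM A M)ˣ) : KM A M) : LaurentSeries (Res A)) ∧
      reductionModL A M (JacTorsion.toTorsion (Additive.ofMul f) : JZero M) =
        (JacTorsion.toTorsion (Additive.ofMul g) :
          Pic0.torsion (Res A) (KM A M) p).1 := by
  obtain ⟨g, hg0, hred, hdiv⟩ := exists_isRed_redDiv hMA hq hA (Units.ne_zero (f : (FB M)ˣ))
  have hdiv' : FF.div (Res A) g = (p : ℤ) • redDiv (goodRed hMA) (JacTorsion.divQuot f) := by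
    rw [← map_zsmul, JacTorsion.smul_divQuot, hdiv]
  have hmem : Units.mk0 g hg0 ∈ JacTorsion.divGrp (Res A) (KM A M) p := fun P => by
    rw [Units.val_mk0, ← JacTorsion.div_apply g P, hdiv', Finsupp.smul_apply, smul_eq_mul]
    exact dvd_mul_right _ _
  refine ⟨⟨_, hmem⟩, hred, ?_⟩
  show reductionModL A M (Pic0.mk ⟨JacTorsion.divQuot f, _⟩) = _
  refine (reductionModL_mk_of_torsion (seriesCompat hMA)
    (EichlerShimura.principalGeneratedByIntegral hMA) ⟨JacTorsion.divQuot f, _⟩ (NeZero.ne p)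
    (Pic0.mem_torsion.mp (JacTorsion.toTorsion (Additive.ofMul f)).2)).trans ?_
  refine congrArg Pic0.mk (Subtype.ext (JacTorsion.eq_of_smul_eq (m := p) ?_))
  show (p : ℤ) • redDiv (goodRed hMA) (JacTorsion.divQuot f) =
    (p : ℤ) • JacTorsion.divQuot (⟨_, hmem⟩ : JacTorsion.divGrp (Res A) (KM A M) p)
  rw [JacTorsion.smul_divQuot, Units.val_mk0, hdiv']

include hMA in
/-- Reduction of torsion classes is onto. -/
theorem exists_toTorsion_eq {q p : ℕ} [hqf : Fact q.Prime] [Fact p.Prime] [CharP (Res A) q]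
    (hqp : q ≠ p) (hA : A.LiesOverPrime q) (hqM : ¬ q ∣ M)
    (g : JacTorsion.divGrp (Res A) (KM A M) p) :
    ∃ f : JacTorsion.divGrp QBar (FB M) p,
      reductionModL A M (JacTorsion.toTorsion (Additive.ofMul f) : JZero M) =
        (JacTorsion.toTorsion (Additive.ofMul g) :
          Pic0.torsion (Res A) (KM A M) p).1 := by
  have hp : p.Prime := Fact.out
  have hlq : ¬ p ∣ q ^ 1 := by
    rw [pow_one]
    exact fun h => hqp ((Nat.prime_dvd_prime_iff_eq hp hqf.out).mp h).symm
  set T := Pic0.torsion QBar (FB M) p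
  set T' := Pic0.torsion (Res A) (KM A M) p
  have hR : ∀ x : T, reductionModL A M (x : JZero M) ∈ T' := fun x => by
    rw [Pic0.mem_torsion, ← map_zsmul, Pic0.mem_torsion.mp x.2, map_zero]
  let R : T → T' := fun x => ⟨_, hR x⟩
  have hinj : Function.Injective R := fun x y hxy => by
    refine Subtype.ext (sub_eq_zero.mp ?_)
    refine EichlerShimura.injectiveOnTorsion M hqM A hA
      (EichlerShimura.reductionInputsModL hMA) p
      (fun h => hqp ((Nat.prime_dvd_prime_iff_eq hqf.out hp).mp h)) _ ?_ ?_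
    · rw [← natCast_zsmul]
      exact Pic0.mem_torsion.mp (sub_mem x.2 y.2)
    · rw [map_sub, sub_eq_zero]
      exact congrArg Subtype.val hxy
  have hcard : Nat.card T' = Nat.card T := by
    have h1 := CurveTorsion.natCard_torsion_of_isFrob
      (Fermat.Agent.Mazur.Eisenstein.isFrob_coeffAut M A hA) p hlq 1
    have h2 := CurveTorsion.natCard_torsion_pow_of_charZero QBar (FB M) p 1
    rw [pow_one] at h1 h2
    rw [h1, h2, genusFF_residue_eq hMA]
  have : Finite T := JacTorsion.finite_torsion_JZero M p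
  have : Finite T' := Nat.finite_of_card_ne_zero (by
    rw [hcard]; exact Nat.card_pos.ne')
  obtain ⟨x, hx⟩ := ((Nat.bijective_iff_injective_and_card R).mpr ⟨hinj, hcard.symm⟩).2
    (JacTorsion.toTorsion (Additive.ofMul g))
  obtain ⟨f, rfl⟩ := JacTorsion.toTorsion_surjective x
  exact ⟨f.toMul, congrArg Subtype.val hx⟩

end Reduction

variable {p : ℕ} [Fact p.Prime] {q M : ℕ} [Fact q.Prime] [NeZero M] {A : ValuationSubring QBar}

set_option maxHeartbeats 3000000 in
/-- An eigen reduction which is not a constant times a `p`-th power gives an eigen class. -/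
theorem exists_eigen_of_eigenRed (hqp : q ≠ p) (hA : A.LiesOverPrime q)
    (hqM : ¬ q ∣ M) (G : ℕ → Prop) (a : ℕ → ℤ)
    (hG : ∀ l : ℕ, l.Prime → G l → ¬ l ∣ q * M * p)
    {z : LaurentSeries (Res A)} (hz : IsEigenRed A M p G a z) (hnt : ¬ IsTrivRed A M p z) :
    ∃ y : JZero M, y ≠ 0 ∧ p • y = 0 ∧ MazurP.IsEigen M G a y := by
  have hp : p.Prime := Fact.out
  have hq : q.Prime := Fact.out
  have hMA : (M : Res A) ≠ 0 := EichlerShimura.natCast_ne_zero hq hqM hA
  have : IsAlgClosed (Res A) := residueField_isAlgClosed A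
  have : CharP (Res A) q := residueField_charP hA hq
  have : FF.IsFunctionField QBar (FB M) := EichlerShimura.isFunctionField_bar
  have : FF.IsFunctionField (Res A) (KM A M) := isFunctionField_KM A hMA
  obtain ⟨hz0, ⟨hzK, hord⟩, hhecke⟩ := hz
  let g₀ : JacTorsion.divGrp (Res A) (KM A M) p :=
    ⟨Units.mk0 ⟨z, hzK⟩ fun h0 => hz0 (congrArg Subtype.val h0), hord⟩
  obtain ⟨f, hf⟩ := exists_toTorsion_eq hMA hqp hA hqM g₀
  refine ⟨(JacTorsion.toTorsion (Additive.ofMul f) : JZero M), fun h0 => hnt ?_, ?_, ?_⟩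
  · rw [h0, map_zero] at hf
    obtain ⟨w, hw⟩ := (JacTorsion.toTorsion_eq_zero_iff g₀).mp (Subtype.ext hf.symm)
    refine ⟨1, one_ne_zero, ((w : KM A M) : LaurentSeries (Res A)), (w : KM A M).2, ?_⟩
    rw [map_one, one_mul]
    exact (congrArg (fun u : (KM A M)ˣ => (((u : KM A M)) : LaurentSeries (Res A))) hw).symm
  · rw [← natCast_zsmul]
    exact Pic0.mem_torsion.mp (JacTorsion.toTorsion (Additive.ofMul f)).2
  intro l hl hGl
  have : NeZero l := ⟨hl.ne_zero⟩
  have : NeZero (M * l) := ⟨mul_ne_zero (NeZero.ne M) hl.ne_zero⟩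
  have hlM : ¬ l ∣ M := fun h => hG l hl hGl ((h.mul_left q).mul_right p)
  have hlq : ¬ q ∣ l := fun h => hG l hl hGl (by
    rw [← (Nat.prime_dvd_prime_iff_eq hq hl).mp h]
    exact (dvd_mul_right q M).mul_right p)
  -- the image of the Kummer function
  have hin := FF.heckeInputsAlong QBar M l
  haveI := hin.snd.snd.fst
  show heckeOperatorAlong QBar M l _ = _
  rw [heckeOperatorAlong, dif_pos hin]
  obtain ⟨f', hf', htor⟩ := GaloisReps.correspondence_toTorsion (heckeBetaBar QBar M l)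
    (heckeAlphaBar QBar M l) hin.snd.fst hin.fst hin.snd.snd.snd.snd.1
    hin.snd.snd.snd.fst hin.snd.snd.snd.snd.2 f
  refine htor.symm.trans ?_
  have hN' : ((f' : (FB M)ˣ) : FB M) = MazurP.heckeNorm M l ((f : (FB M)ˣ) : FB M) := hf'
  obtain ⟨g, hgf, hgt⟩ := exists_reduction_toTorsion hMA hq hA f
  obtain ⟨g', hgf', hgt'⟩ := exists_reduction_toTorsion hMA hq hA f'
  suffices key : JacTorsion.toTorsion (Additive.ofMul g') =
      a l • JacTorsion.toTorsion (Additive.ofMul g) by
    refine sub_eq_zero.mp (EichlerShimura.injectiveOnTorsion M hqM A hA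
      (EichlerShimura.reductionInputsModL hMA) p
      (fun h => hqp ((Nat.prime_dvd_prime_iff_eq hq hp).mp h)) _ ?_ ?_)
    · rw [← natCast_zsmul]
      exact Pic0.mem_torsion.mp (sub_mem (JacTorsion.toTorsion (Additive.ofMul f')).2
        (zsmul_mem (JacTorsion.toTorsion (Additive.ofMul f)).2 (a l)))
    · rw [map_sub, map_zsmul, hgt', hgt, key, AddSubgroup.coe_zsmul, sub_self]
  rw [← sub_eq_zero, ← map_zsmul, ← ofMul_zpow, ← map_sub, ← ofMul_div,
    JacTorsion.toTorsion_eq_zero_iff, JacTorsion.mem_powGrp]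
  -- `g` is `z` up to a `p`-th power
  obtain ⟨w, hw⟩ : ∃ w : (KM A M)ˣ, w ^ p = ((g / g₀ : JacTorsion.divGrp (Res A) (KM A M) p) :
      (KM A M)ˣ) := by
    rw [← JacTorsion.mem_powGrp, ← JacTorsion.toTorsion_eq_zero_iff, ofMul_div, map_sub,
      sub_eq_zero]
    exact Subtype.ext (hgt.symm.trans hf)
  set W : LaurentSeries (Res A) := ((w : KM A M) : LaurentSeries (Res A))
  set gs : LaurentSeries (Res A) := (((g : (KM A M)ˣ) : KM A M) : LaurentSeries (Res A))
  have hW0 : W ≠ 0 := fun h => w.ne_zero (Subtype.ext h)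
  have hgz : gs = z * W ^ p := by
    have e : ((w ^ p * (g₀ : (KM A M)ˣ) : (KM A M)ˣ)) = (g : (KM A M)ˣ) := by
      rw [hw, Subgroup.coe_div, div_mul_cancel]
    have e' := congrArg (fun u : (KM A M)ˣ => (((u : KM A M)) : LaurentSeries (Res A))) e
    rw [mul_comm]
    exact e'.symm
  -- the image of `W`
  obtain ⟨x, hx⟩ := red1_surjective M hMA (w : KM A M).2
  have hxI : MazurP.IsRed A ((x : FB M) : LSer) W := by
    rw [← show red1 A M x = W from hx, red1_eq]
    exact MazurP.IsRed.of_locS _ (by rw [← red1_eq, hx]; exact hW0)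
  have hxy : ∀ (y : FB M) (ζ : QBarˣ), IsPrimitiveRoot ζ l →
      qExpand QBar l (MazurP.heckeNorm M l y : LSer) = MazurP.heckeProd l ζ (y : LSer) :=
    fun y ζ hζ => MazurP.qExpand_heckeNorm hl hlM hζ y
  obtain ⟨Y, hY, hYi⟩ := MazurP.exists_isRed_heckeImage (l := l) hA hq hlq
    (mem_fracS_of_mem (A := A) _) (hxy (x : FB M)) hxI
  have hn0 : MazurP.heckeNorm M l (x : FB M) ≠ 0 :=
    MazurP.heckeNorm_ne_zero fun h => hxI.ne_zero_left (congrArg Subtype.val h)
  obtain ⟨gY, -, hgY, -⟩ := exists_isRed_redDiv hMA hq hA hn0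
  have hYK : Y ∈ KM A M := by
    obtain ⟨u, -, hu⟩ := hgY.unique hY
    rw [hu]
    exact mul_mem ((KM A M).algebraMap_mem u) gY.2
  -- compare
  obtain ⟨X', hX', hX'i⟩ := MazurP.exists_isRed_heckeImage (l := l) hA hq hlq
    (mem_fracS_of_mem (A := A) _) (hxy ((f : (FB M)ˣ) : FB M)) hgf
  obtain ⟨X, hXi, u, hu, w', hw'K, hXw⟩ := hhecke l hl hGl
  rw [hN'] at hgf'
  obtain ⟨u', hu', hg'⟩ := hX'.unique hgf'
  have : NeZero (l : Res A) := ⟨by rwa [Ne, CharP.cast_eq_zero_iff (Res A) q]⟩
  obtain ⟨η₀, hη₀⟩ := HasEnoughRootsOfUnity.exists_primitiveRoot (Res A) l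
  have hη : IsPrimitiveRoot (hη₀.isUnit (NeZero.ne l)).unit l :=
    IsPrimitiveRoot.coe_units_iff.mp (by simpa using hη₀)
  have hXX : X' = X * Y ^ p := qExpand_injective l (by
    rw [map_mul, map_pow, hX'i _ hη, hXi _ hη, hYi _ hη,
      show gs = z * W ^ p from hgz, map_mul, map_pow])
  obtain ⟨c, hc⟩ := IsAlgClosed.exists_pow_nat_eq (u' * u) hp.pos
  set v : LaurentSeries (Res A) := algebraMap (Res A) _ c * (w' * Y * (W ^ a l)⁻¹) with hv
  have hvK : v ∈ KM A M := mul_mem ((KM A M).algebraMap_mem c)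
    (mul_mem (mul_mem hw'K hYK) (inv_mem (zpow_mem (w : KM A M).2 _)))
  have hzl : z ^ a l ≠ 0 := zpow_ne_zero _ hz0
  have hXe : X = HahnSeries.C u * w' ^ p * z ^ a l := by
    rw [← hXw, mul_assoc, inv_mul_cancel₀ hzl, mul_one]
  have hmain : v ^ p * gs ^ a l = (((g' : (KM A M)ˣ) : KM A M) : LaurentSeries (Res A)) := by
    rw [hg', hXX, hXe, hgz, hv, mul_pow, ← map_pow, hc, map_mul, mul_zpow, mul_pow, mul_pow,
      inv_pow, ← zpow_natCast (W ^ a l) p, zpow_comm W (a l) (p : ℤ), zpow_natCast W p,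
      MazurP.algebraMap_eq_C, MazurP.algebraMap_eq_C]
    have := zpow_ne_zero (a l) (pow_ne_zero p hW0)
    field_simp
  have hv0 : v ≠ 0 := fun h0 => by
    rw [h0, zero_pow hp.ne_zero, zero_mul] at hmain
    exact Units.ne_zero (g' : (KM A M)ˣ) (Subtype.ext hmain.symm)
  refine ⟨Units.mk0 ⟨v, hvK⟩ fun h0 => hv0 (congrArg Subtype.val h0), ?_⟩
  rw [Subgroup.coe_div, eq_div_iff_mul_eq', Subgroup.coe_zpow]
  refine Units.ext (Subtype.ext ?_)
  rw [Units.val_mul, Units.val_pow_eq_pow_val, Units.val_mk0, Units.val_zpow_eq_zpow_val]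
  push_cast
  exact hmain

end Fermat.Agent.RT.Mazur

end
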