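import Fermat.Agent.RT.Mazur.Principle.EigenClass
import Fermat.Agent.RT.Mazur.Principle.Quadratic
import Fermat.Agent.RT.Mazur.Principle.Specialise
import Fermat.Agent.RT.Mazur.Principle.Toric
import Fermat.Agent.RT.Mazur.Principle.Transfer
import Fermat.Agent.RT.Lower.Assembly
import Fermat.Agent.RT.Lower.Avoiding

/-!
# Mazur's principle away from `p`

An unramified prime `q ≠ p` of the level is removed unless it is a scalar prime: on the residual
classes inside an eigenspace of `w_q` either some reduction is an eigen class of level `M`, or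
Frobenius is the scalar `-q w_q`.
-/

set_option autoImplicit false
set_option synthInstance.maxHeartbeats 400000
set_option maxHeartbeats 1000000

noncomputable section

open ModularCurve AlgebraicCurve CongruenceSubgroup WeierstrassCurve
open Fermat.Agent.Semistable Fermat.Agent.Arith
open Fermat.Agent.RT.MazurP (IsEigen)

namespace Fermat.Agent.RT.Mazur

/-- A level with a prime divisor congruent to `11` modulo `12` has no elliptic points. -/
theorem noEll_of_prime_dvd {M r : ℕ} [NeZero M] (hr : r.Prime) (h : r ∣ M) (h11 : r % 12 = 11) :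
    nuTwo M = 0 ∧ nuThree M = 0 := by
  have := Fact.mk hr
  obtain ⟨k, hk⟩ := h
  have h2 : nuTwo r = 0 ∧ nuThree r = 0 := by
    refine ⟨Nat.card_eq_zero.mpr (Or.inl ⟨fun ⟨x, hx⟩ => ?_⟩),
      Nat.card_eq_zero.mpr (Or.inl ⟨fun ⟨x, hx⟩ => ?_⟩)⟩
    · exact (ZMod.exists_sq_eq_neg_one_iff.mp ⟨x, by linear_combination -hx⟩) (by omega)
    · have hx1 : x ≠ 1 := by
        rintro rfl
        have h3 : ((3 : ℕ) : ZMod r) = 0 := by push_cast; linear_combination hx
        have := (Nat.prime_dvd_prime_iff_eq hr Nat.prime_three).mp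
          ((ZMod.natCast_eq_zero_iff 3 r).mp h3)
        omega
      have hx3 : x ^ 3 = 1 := by linear_combination (x - 1) * hx
      have hx0 : x ≠ 0 := by
        rintro rfl
        simp at hx
      have := Fact.mk Nat.prime_three
      have hord : orderOf x = 3 := orderOf_eq_prime hx3 hx1
      have hdvd : 3 ∣ r - 1 := hord ▸ ZMod.orderOf_dvd_card_sub_one hx0
      omega
  rw [hk, mul_comm]
  have : NeZero k := ⟨fun hk0 => NeZero.ne M (by rw [hk, hk0, mul_zero])⟩
  exact noEll_mul k h2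

attribute [local instance] LowerP.torModule

/-- **Mazur's principle at a level without elliptic points.** -/
theorem isResiduallyModularOfLevel_of_noEll (W : WeierstrassCurve ℤ) (p : ℕ) [Fact p.Prime]
    (hΔ : W.Δ ≠ 0) (hp2 : p ≠ 2) (hirr : W.ModRepIsIrreducible p) {q M : ℕ} [NeZero M]
    (hq : q.Prime) (hqp : q ≠ p) (hqM : ¬ q ∣ M) (hE : nuTwo M = 0 ∧ nuThree M = 0)
    (hunr : Lower.UnramifiedAt W p hΔ q) (hnsc : ¬ Lower.IsScalarPrime W p hΔ q)
    (hres : W.IsResiduallyModularOfLevel p (q * M)) : W.IsResiduallyModularOfLevel p M := by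
  classical
  have := Fact.mk hq
  have hp : p.Prime := Fact.out
  set N := q * M with hN
  set G : ℕ → Prop := fun l => W.IsGoodPrimeFor l ∧ ¬ l ∣ N * p with hG
  set ρ := EC.Rep.residualRep W p hΔ with hρ
  let b := Module.finBasisOfFinrankEq (ZMod p) ρ.V ρ.finrank_eq
  let r : GQ →* Matrix (Fin 2) (Fin 2) (ZMod p) :=
    (LinearMap.toMatrixAlgEquiv b : _ →* _).comp ρ.ρ
  have hspan : Submodule.span (ZMod p) (Set.range r) = ⊤ :=
    Deform.span_matrix_eq_top ρ (EC.Rep.isAbsolutelyIrreducible_residualRep hΔ hp2 hirr) b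
  have htr : ∀ g, LinearMap.trace (ZMod p) ρ.V (ρ.ρ g) = (r g).trace := fun g =>
    LinearMap.trace_eq_matrix_trace _ b _
  have hdet : ∀ g, LinearMap.det (ρ.ρ g) = (r g).det := fun g =>
    (LinearMap.det_toMatrix b _).symm
  let T := LowerP.Tor N p
  have : Finite T := JacTorsion.finite_torsion_JZero N p
  let ψ : GQ →* Module.End (ZMod p) T := LowerP.torRep N p
  have hψ : ∀ g x, ((ψ g x : T) : JZero N) = g • (x : JZero N) := fun _ _ => rfl
  have hscal : ∀ (c : ℤ) (x : T), (((c : ZMod p) • x : T) : JZero N) = c • (x : JZero N) :=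
    fun c x => by rw [Int.cast_smul_eq_zsmul, AddSubgroup.coe_zsmul]
  have htors : ∀ x : T, p • (x : JZero N) = 0 := fun x => by
    rw [← natCast_zsmul]; exact Pic0.mem_torsion.mp x.2
  -- an eigen class in an eigenspace of the involution
  obtain ⟨f, 𝔪, hf, h𝔪, hp𝔪, hcong⟩ := hres
  obtain ⟨y₀, hy₀, hy₀p, hy₀G⟩ := exists_eigen_torsion (N := N) (p := p) G W.apOfModel hf h𝔪 hp𝔪
    fun l hl hGl => hcong l hl hGl.1 (fun h => hGl.2 (h.mul_right p))
      (fun h => hGl.2 (h ▸ dvd_mul_left p N))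
  have hGN : ∀ l, G l → ¬ l ∣ N := fun l h h' => h.2 (h'.mul_right p)
  have hwG : ∀ {x : JZero N}, IsEigen N G W.apOfModel x →
      IsEigen N G W.apOfModel (wPic q M hqM x) := fun {x} h l hl hGl => by
    rw [← wPic_heckeOperatorBar hqM l hl (hGN l hGl) x, h l hl hGl, map_zsmul]
  obtain ⟨ε, hε, y₁, hy₁, hy₁p, hy₁G, hy₁w⟩ : ∃ ε : ℤ, ε * ε = 1 ∧ ∃ y : JZero N, y ≠ 0 ∧
      p • y = 0 ∧ IsEigen N G W.apOfModel y ∧ wPic q M hqM y = ε • y := by
    have mk : ∀ ε : ℤ, ε * ε = 1 → y₀ + ε • wPic q M hqM y₀ ≠ 0 → ∃ y : JZero N, y ≠ 0 ∧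
        p • y = 0 ∧ IsEigen N G W.apOfModel y ∧ wPic q M hqM y = ε • y := fun ε hε h =>
      ⟨_, h, by rw [nsmul_add, smul_comm p ε, ← map_nsmul, hy₀p, map_zero, smul_zero, add_zero],
        fun l hl hGl => by
          rw [map_add, map_zsmul, hy₀G l hl hGl, hwG hy₀G l hl hGl, zsmul_add, smul_comm],
        by rw [map_add, map_zsmul, wPic_wPic, zsmul_add, smul_smul, hε, one_zsmul, add_comm]⟩
    by_cases h : y₀ + (1 : ℤ) • wPic q M hqM y₀ = 0
    · refine ⟨-1, rfl, mk (-1) rfl fun h' => hy₀ ?_⟩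
      have h2 : (2 : ℤ) • y₀ = 0 := by
        have := congrArg₂ (· + ·) h h'
        simp only [one_zsmul, neg_zsmul, add_zero] at this
        rw [two_zsmul]
        calc y₀ + y₀ = (y₀ + wPic q M hqM y₀) + (y₀ + -wPic q M hqM y₀) := by abel
          _ = 0 := this
      obtain ⟨i, j, hij⟩ : IsCoprime (2 : ℤ) (p : ℤ) := Int.isCoprime_iff_nat_coprime.mpr
        ((Nat.coprime_primes Nat.prime_two hp).mpr (Ne.symm hp2))
      rw [← one_zsmul y₀, ← hij, add_zsmul, mul_zsmul, mul_zsmul, h2, natCast_zsmul, hy₀p,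
        zsmul_zero, zsmul_zero, add_zero]
    · exact ⟨1, rfl, mk 1 rfl h⟩
  let V₁ : Submodule (ZMod p) T :=
    { carrier := {x | IsEigen N G W.apOfModel (x : JZero N) ∧
        wPic q M hqM (x : JZero N) = ε • (x : JZero N)}
      add_mem' := fun {x y} hx hy => ⟨fun l hl hG => by
        rw [AddSubgroup.coe_add, map_add, hx.1 l hl hG, hy.1 l hl hG, zsmul_add],
        by rw [AddSubgroup.coe_add, map_add, hx.2, hy.2, zsmul_add]⟩
      zero_mem' := ⟨fun l hl hG => by rw [AddSubgroup.coe_zero, _root_.map_zero, zsmul_zero],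
        by rw [AddSubgroup.coe_zero, _root_.map_zero, zsmul_zero]⟩
      smul_mem' := fun c x hx => by
        obtain ⟨c, rfl⟩ := ZMod.intCast_surjective c
        refine ⟨fun l hl hG => ?_, ?_⟩
        · rw [hscal, map_zsmul, hx.1 l hl hG, smul_comm]
        · rw [hscal, map_zsmul, hx.2, smul_comm] }
  have h₁ : IsStableUnder ψ V₁ := fun g x hx => ⟨fun l hl hG => by
      rw [hψ, ← GaloisReps.galois_heckeOperatorBar N ⟨l, hl⟩ g (x : JZero N), hx.1 l hl hG]
      exact map_zsmul (DistribSMul.toAddMonoidHom (JZero N) g) _ _,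
    by
      rw [hψ, ← galois_wPic hqM g (x : JZero N), hx.2]
      exact map_zsmul (DistribSMul.toAddMonoidHom (JZero N) g) _ _⟩
  have h₁0 : V₁ ≠ ⊥ := (Submodule.ne_bot_iff _).mpr
    ⟨⟨y₁, Pic0.mem_torsion.mpr (by rw [natCast_zsmul]; exact hy₁p)⟩, ⟨hy₁G, hy₁w⟩,
      fun h => hy₁ (congrArg Subtype.val h)⟩
  have hquad : ∀ g, ∀ v ∈ V₁, ψ g (ψ g v) - (r g).trace • ψ g v + (r g).det • v = 0 := by
    intro g v hv
    obtain ⟨t, ht⟩ := ZMod.intCast_surjective (r g).trace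
    obtain ⟨d, hd⟩ := ZMod.intCast_surjective (r g).det
    rw [← ht, ← hd]
    refine Subtype.ext ?_
    rw [AddSubgroup.coe_add, AddSubgroup.coe_sub, hscal, hscal, hψ, hψ]
    exact eigen_quadratic hΔ G ∅ (fun l _ hg hl _ => ⟨hg, hl⟩) (htors v) hv.1 g t d
      ((htr g).trans ht.symm) ((hdet g).trans hd.symm)
  obtain ⟨U, hUV, hU0, hU, hUtriv, hUscal⟩ :=
    exists_submodule_kernel ψ r hspan V₁ h₁ h₁0 hquad
  -- a Frobenius at `q`
  obtain ⟨A, hA, σ, hσ, hσc⟩ : ∃ A : ValuationSubring QBar, A.LiesOverPrime q ∧ ∃ σ : GQ,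
      A.IsFrobeniusAt σ q ∧ ((∀ c : ZMod p, ρ.ρ σ ≠ c • 1) ∨ q % p ≠ 1) := by
    by_contra hcon
    obtain ⟨A, hA⟩ := Arith.exists_liesOverPrime hq
    obtain ⟨σ, hσ⟩ := Arith.exists_isFrobeniusAt hA hq
    refine hnsc ⟨hq, ?_, hunr, fun B hB τ hτ => ?_⟩
    · by_contra h
      exact hcon ⟨A, hA, σ, hσ, Or.inr h⟩
    · by_contra h
      exact hcon ⟨B, hB, τ, hτ, Or.inl fun c hc => h ⟨c, hc⟩⟩
  have hfix : ∀ x ∈ U, ∀ τ ∈ A.inertiaSubgroupIn ℚ, τ • (x : JZero N) = x := fun x hx τ hτ => by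
    refine congrArg Subtype.val (hUtriv τ ?_ x hx)
    show LinearMap.toMatrixAlgEquiv b (ρ.ρ τ) = 1
    rw [show ρ.ρ τ = 1 from hunr A hA τ hτ, map_one]
  obtain ⟨l₀, hl₀, hl₀S, hl₀g, -, hl₀ne⟩ :=
    EC.Rep.exists_apOfModel_ne hp2 hirr hΔ (N * p).primeFactors
  have hl₀N : ¬ l₀ ∣ N * p := fun h =>
    hl₀S (Nat.mem_primeFactors.mpr ⟨hl₀, h, mul_ne_zero (NeZero.ne N) hp.ne_zero⟩)
  have hEis : ∃ l : ℕ, l.Prime ∧ G l ∧ ¬ (p : ℤ) ∣ W.apOfModel l - ((l : ℤ) + 1) :=
    ⟨l₀, hl₀, ⟨hl₀g, hl₀N⟩, fun h => hl₀ne (by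
      have := (ZMod.intCast_zmod_eq_zero_iff_dvd _ p).mpr h
      push_cast at this
      linear_combination this)⟩
  have hGq : ∀ l : ℕ, l.Prime → G l → ¬ l ∣ q * M * p := fun l _ h => h.2
  by_cases hlow : ∃ x ∈ U, ∃ z : LaurentSeries (Res A),
      IsEigenRed A M p G W.apOfModel z ∧ ¬ IsTrivRed A M p z
  · -- a class of level `M`
    obtain ⟨-, -, z, hz, hnt⟩ := hlow
    obtain ⟨y, hy, hyp, hyG⟩ := exists_eigen_of_eigenRed hqp hA hqM G W.apOfModel hGq hz hnt
    have hext := eigen_extend hΔ G {q} (fun l hl hgood hlMp hlq => ⟨hgood, fun h => by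
      rw [hN, mul_assoc] at h
      rcases hl.dvd_mul.mp h with h | h
      · exact hlq (Finset.mem_singleton.mpr ((Nat.prime_dvd_prime_iff_eq hl hq).mp h))
      · exact hlMp h⟩) hyp hyG
    obtain ⟨g, hg, 𝔫, h𝔫, hp𝔫, hc⟩ := exists_eigenform_of_eigen_torsion _ _ hy hyp hext
    exact ⟨g, 𝔫, hg, h𝔫, hp𝔫, fun l hl hgood hlM hlp => hc l hl ⟨hgood, fun h => by
      rcases hl.dvd_mul.mp h with h | h
      · exact hlM h
      · exact hlp ((Nat.prime_dvd_prime_iff_eq hl hp).mp h)⟩⟩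
  -- the toric case is impossible
  exfalso
  set c₀ : ZMod p := ((-((q : ℤ) * ε) : ℤ) : ZMod p) with hc₀
  have hscalar : ∀ v ∈ U, ψ σ v = c₀ • v := by
    intro v hv
    have hconst := (hasConstRed_or_eigenRed hqM hqp hE hA G W.apOfModel hGq hEis (htors v)
      (hfix v hv) (hUV hv).1).resolve_right fun h => hlow ⟨v, hv, h⟩
    have h := frobenius_add_wPic_eq_zero hqM hqp hA hσ hconst
    rw [(hUV hv).2, ← natCast_zsmul, smul_smul] at h
    refine Subtype.ext ?_
    rw [hψ, hc₀, hscal, neg_zsmul]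
    exact eq_neg_of_add_eq_zero_left h
  by_cases hns : ∀ c : ZMod p, r σ ≠ c • 1
  · obtain ⟨v, hv, hne⟩ := hUscal σ hns c₀
    exact hne (hscalar v hv)
  push Not at hns
  obtain ⟨c, hc⟩ := hns
  have hρσ : ρ.ρ σ = c • 1 := (LinearMap.toMatrixAlgEquiv b).injective
    (hc.trans (by rw [map_smul, map_one]))
  rcases hσc with h | h
  · exact h c hρσ
  obtain ⟨u, hu, hu0⟩ := Submodule.exists_mem_ne_zero_of_ne_bot hU0
  have hd : (r σ).det = (q : ZMod p) := by
    have hn := EC.FrobTrace.card_rootsOfUnity_Qbar p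
    rw [← hdet, EC.Rep.det_residualRep hΔ hn σ]
    exact Arith.modularCyclotomicCharacter_frobenius hA hq hσ hn
      fun h' => hqp ((Nat.prime_dvd_prime_iff_eq hq hp).mp h')
  have hq2 := hquad σ u (hUV hu)
  rw [hscalar u hu, map_smul, hscalar u hu, hc, Matrix.trace_smul, Matrix.trace_one,
    Fintype.card_fin, Matrix.det_smul, Matrix.det_one, Fintype.card_fin, mul_one, smul_smul,
    smul_smul, ← sub_smul, ← add_smul] at hq2
  have h0 := (smul_eq_zero.mp hq2).resolve_right hu0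
  have hcc : c₀ = c := by
    rw [← sub_eq_zero, ← pow_eq_zero_iff two_ne_zero]
    simp only [smul_eq_mul, Nat.cast_ofNat] at h0
    linear_combination h0
  rw [hc, Matrix.det_smul, Matrix.det_one, Fintype.card_fin, mul_one, ← hcc, hc₀] at hd
  push_cast at hd
  have hε' : (ε : ZMod p) * ε = 1 := by exact_mod_cast congrArg (Int.cast (R := ZMod p)) hε
  have hq0 : (q : ZMod p) ≠ 0 := fun h' =>
    hqp ((Nat.prime_dvd_prime_iff_eq hp hq).mp ((ZMod.natCast_eq_zero_iff q p).mp h')).symm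
  have hq1 : (q : ZMod p) = 1 := mul_left_cancel₀ hq0 (by
    linear_combination hd - (q : ZMod p) * q * hε')
  refine h ?_
  have h1 := congrArg ZMod.val hq1
  rwa [ZMod.val_natCast, ZMod.val_one] at h1

/-- **Mazur's principle**, from raising the level and dropping avoiding primes. -/
theorem mazurPrinciple_of (hRaise : Lower.RaiseLevel) (hDrop : Lower.DropAvoiding) :
    Lower.MazurPrinciple := by
  intro W p _ hΔ hp2 hW hirr q M hq hqp hqM hM hunr hnsc hres
  classical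
  have hM0 : M ≠ 0 := hM.ne_zero
  obtain ⟨r, hrT, hr12, hr⟩ := Lower.avoidingExists W p hΔ hp2 hW hirr (insert q M.primeFactors)
  rw [Finset.mem_insert, not_or] at hrT
  have hrM : ¬ r ∣ M := fun h => hrT.2 (Nat.mem_primeFactors.mpr ⟨hr.1, h, hM0⟩)
  have hsq : Squarefree (r * M) :=
    (Nat.squarefree_mul (hr.1.coprime_iff_not_dvd.mpr hrM)).mpr ⟨hr.1.squarefree, hM⟩
  have hqrM : ¬ q ∣ r * M := fun h => by
    rcases hq.dvd_mul.mp h with h | h
    · exact hrT.1 ((Nat.prime_dvd_prime_iff_eq hq hr.1).mp h).symm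
    · exact hqM h
  have hsqN : Squarefree (q * (r * M)) :=
    (Nat.squarefree_mul (hq.coprime_iff_not_dvd.mpr hqrM)).mpr ⟨hq.squarefree, hsq⟩
  have hresA := hRaise W p hΔ hp2 hW hirr _ hsqN
    ⟨q * M, mul_dvd_mul_left q (dvd_mul_left M r), hres⟩
  have : NeZero (r * M) := ⟨hsq.ne_zero⟩
  exact hDrop W p hΔ hp2 hW hirr r M hr hsq
    (isResiduallyModularOfLevel_of_noEll W p hΔ hp2 hirr hq hqp hqrM
      (noEll_of_prime_dvd hr.1 (dvd_mul_right r M) hr12) hunr hnsc hresA)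

end Fermat.Agent.RT.Mazur

end
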