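import Fermat.Agent.RT.Mazur.Principle.Defs

/-!
# Eigen reductions at level `M`

The reductions on one side of the Kummer function of an eigen class: functions of level `M` over
the residue field with divisor divisible by `p` on which the Hecke products act by `a`.
-/

set_option autoImplicit false
set_option synthInstance.maxHeartbeats 400000

noncomputable section

namespace Fermat.Agent.RT.Mazur

open ModularCurve AlgebraicCurve
open Fermat.Agent.Semistable Fermat.Agent.Arith

variable (A : ValuationSubring QBar) (M p : ℕ) [NeZero M]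

/-- A constant times a `p`-th power at level `M`. -/
def IsTrivRed (z : LaurentSeries (Res A)) : Prop :=
  ∃ u : Res A, u ≠ 0 ∧ ∃ w ∈ KM A M, z = HahnSeries.C u * w ^ p

/-- A function of level `M` with divisor divisible by `p` on which the Hecke products act by
`a` modulo constants and `p`-th powers. -/
def IsEigenRed (G : ℕ → Prop) (a : ℕ → ℤ) (z : LaurentSeries (Res A)) : Prop :=
  z ≠ 0 ∧ (∃ hz : z ∈ KM A M, ∀ P : Place (Res A) (KM A M), (p : ℤ) ∣ P.ord ⟨z, hz⟩) ∧
    ∀ l : ℕ, [NeZero l] → l.Prime → G l → ∃ X : LaurentSeries (Res A),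
      MazurP.IsHeckeImage l z X ∧ IsTrivRed A M p (X * (z ^ a l)⁻¹)

end Fermat.Agent.RT.Mazur

end
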